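/-
S56 / CE3 (connected-etale input for `p = 3`, `ρ̄|G_p` reducible): BASIC local facts in
`Ω = PadicAlgCl p` (no Hopf algebras):

* `ce3D p`            : the local Galois group `Gal(Ω/ℚ_p)`
* `ce3Inertia p`      : the inertia subgroup `{τ | ∀ y, ‖y‖ ≤ 1 → ‖τ y - y‖ < 1}` (the same shape as
                        S55 `localGaloisToGlobal_mem_inertiaSubgroupIn_iff`)
* `ce3_norm_algebraMap_le_one`, `ce3_norm_le_one_of_isIntegral`
* `ce3_eq_one_of_pow_eq_one` : `ζ^p = 1`, `‖ζ - 1‖ ≤ ‖p‖`, `p` odd `⟹ ζ = 1`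
* `ce3_exists_pow`   : every `σ` acts on `μ_p(Ω)` by a power map
* `ce3_mem_range_of_fixed` : `Ω^D = ℚ_p`
-/
import Mathlib

set_option autoImplicit false

namespace Fermat.Agent.S56

variable (p : ℕ) [Fact p.Prime]

/-- the local Galois group `Gal(ℚ̄_p/ℚ_p)` -/
abbrev ce3D := PadicAlgCl p ≃ₐ[ℚ_[p]] PadicAlgCl p

theorem ce3_norm_algEquiv (τ : ce3D p) (y : PadicAlgCl p) : ‖τ y‖ = ‖y‖ :=
  (spectralNorm_eq_of_equiv τ y).symm

/-- the inertia subgroup of the local Galois group -/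
def ce3Inertia : Subgroup (ce3D p) where
  carrier := {τ | ∀ y : PadicAlgCl p, ‖y‖ ≤ 1 → ‖τ y - y‖ < 1}
  one_mem' := fun y _ => by simp
  mul_mem' := by
    intro σ τ hσ hτ y hy
    have h1 : (σ * τ) y - y = (σ (τ y) - τ y) + (τ y - y) := by
      rw [AlgEquiv.mul_apply]; ring
    rw [h1]
    refine lt_of_le_of_lt (PadicAlgCl.isNonarchimedean p _ _) (max_lt ?_ (hτ y hy))
    exact hσ (τ y) (by rw [ce3_norm_algEquiv]; exact hy)
  inv_mem' := by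
    intro σ hσ y hy
    have h1 : ‖σ (σ⁻¹ y) - σ⁻¹ y‖ < 1 := hσ (σ⁻¹ y) (by rw [ce3_norm_algEquiv]; exact hy)
    have h2 : σ (σ⁻¹ y) = y := AlgEquiv.apply_symm_apply σ y
    rw [h2, ← norm_neg, neg_sub] at h1
    exact h1

theorem mem_ce3Inertia_iff (τ : ce3D p) :
    τ ∈ ce3Inertia p ↔ ∀ y : PadicAlgCl p, ‖y‖ ≤ 1 → ‖τ y - y‖ < 1 := Iff.rfl

theorem ce3_norm_algebraMap_le_one (c : ℤ_[p]) : ‖algebraMap ℤ_[p] (PadicAlgCl p) c‖ ≤ 1 := by
  have h : algebraMap ℤ_[p] (PadicAlgCl p) c = algebraMap ℚ_[p] (PadicAlgCl p) (c : ℚ_[p]) := rfl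
  rw [h, PadicAlgCl.norm_extends]
  exact c.2

theorem ce3_norm_natCast_prime : ‖((p : ℕ) : PadicAlgCl p)‖ = (p : ℝ)⁻¹ := by
  have h : ((p : ℕ) : PadicAlgCl p) = algebraMap ℚ_[p] (PadicAlgCl p) ((p : ℕ) : ℚ_[p]) := by
    simp
  rw [h, PadicAlgCl.norm_extends, Padic.norm_p]

/-- finite sums in `Ω` obey the ultrametric inequality -/
theorem ce3_norm_sum_le {ι : Type*} (s : Finset ι) (g : ι → PadicAlgCl p) {c : ℝ} (hc : 0 ≤ c)
    (h : ∀ i ∈ s, ‖g i‖ ≤ c) : ‖∑ i ∈ s, g i‖ ≤ c := by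
  classical
  induction s using Finset.induction_on with
  | empty => simpa using hc
  | insert a s ha ih =>
    rw [Finset.sum_insert ha]
    refine (PadicAlgCl.isNonarchimedean p _ _).trans (max_le (h a (Finset.mem_insert_self a s)) ?_)
    exact ih (fun i hi => h i (Finset.mem_insert_of_mem hi))

theorem ce3_norm_sum_lt {ι : Type*} (s : Finset ι) (g : ι → PadicAlgCl p) {c : ℝ} (hc : 0 < c)
    (h : ∀ i ∈ s, ‖g i‖ < c) : ‖∑ i ∈ s, g i‖ < c := by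
  classical
  induction s using Finset.induction_on with
  | empty => simpa using hc
  | insert a s ha ih =>
    rw [Finset.sum_insert ha]
    refine lt_of_le_of_lt (PadicAlgCl.isNonarchimedean p _ _)
      (max_lt (h a (Finset.mem_insert_self a s)) ?_)
    exact ih (fun i hi => h i (Finset.mem_insert_of_mem hi))

/-- elements of `Ω` integral over `ℤ_p` have norm `≤ 1` -/
theorem ce3_norm_le_one_of_isIntegral {x : PadicAlgCl p} (hx : IsIntegral ℤ_[p] x) : ‖x‖ ≤ 1 := by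
  by_contra hlt
  rw [not_le] at hlt
  obtain ⟨P, hP, hroot⟩ := hx
  have hx0 : x ≠ 0 := by
    intro h0
    rw [h0, norm_zero] at hlt
    linarith
  have hnpos : 0 < ‖x‖ := norm_pos_iff.mpr hx0
  -- `x ^ n = - ∑_{i<n} c_i x^i`
  have h1 := hroot
  rw [Polynomial.eval₂_eq_sum_range, Finset.sum_range_succ, hP.coeff_natDegree, map_one,
    one_mul] at h1
  have h2 : x ^ P.natDegree = - ∑ i ∈ Finset.range P.natDegree,
      algebraMap ℤ_[p] (PadicAlgCl p) (P.coeff i) * x ^ i := by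
    rw [eq_neg_iff_add_eq_zero, add_comm]
    exact h1
  by_cases hn : P.natDegree = 0
  · rw [hn, Finset.range_zero, Finset.sum_empty, neg_zero, pow_zero] at h2
    exact one_ne_zero h2
  have h3 : ‖x ^ P.natDegree‖ < ‖x‖ ^ P.natDegree := by
    rw [h2, norm_neg]
    refine ce3_norm_sum_lt p _ _ (pow_pos hnpos _) ?_
    intro i hi
    rw [Finset.mem_range] at hi
    rw [norm_mul, norm_pow]
    calc ‖algebraMap ℤ_[p] (PadicAlgCl p) (P.coeff i)‖ * ‖x‖ ^ i ≤ 1 * ‖x‖ ^ i :=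
          mul_le_mul_of_nonneg_right (ce3_norm_algebraMap_le_one p _) (pow_nonneg hnpos.le _)
      _ = ‖x‖ ^ i := one_mul _
      _ < ‖x‖ ^ P.natDegree := pow_lt_pow_right₀ hlt hi
  rw [norm_pow] at h3
  exact lt_irrefl _ h3


theorem ce3_norm_natCast_le_one (n : ℕ) : ‖((n : ℕ) : PadicAlgCl p)‖ ≤ 1 := by
  have h : ((n : ℕ) : PadicAlgCl p) = algebraMap ℤ_[p] (PadicAlgCl p) (n : ℤ_[p]) := by simp
  rw [h]
  exact ce3_norm_algebraMap_le_one p _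

theorem ce3_norm_natCast_le_of_dvd {n : ℕ} (h : p ∣ n) : ‖((n : ℕ) : PadicAlgCl p)‖ ≤ (p : ℝ)⁻¹ := by
  obtain ⟨c, rfl⟩ := h
  rw [Nat.cast_mul, norm_mul, ce3_norm_natCast_prime]
  have hp : (0 : ℝ) ≤ (p : ℝ)⁻¹ := by positivity
  calc (p : ℝ)⁻¹ * ‖((c : ℕ) : PadicAlgCl p)‖ ≤ (p : ℝ)⁻¹ * 1 :=
        mul_le_mul_of_nonneg_left (ce3_norm_natCast_le_one p c) hp
    _ = (p : ℝ)⁻¹ := mul_one _

/-- `ζ^p = 1` and `‖ζ - 1‖ ≤ ‖p‖` force `ζ = 1` for odd `p`. -/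
theorem ce3_eq_one_of_pow_eq_one (hp2 : p ≠ 2) {ζ : PadicAlgCl p} (hζ : ζ ^ p = 1)
    (hnorm : ‖ζ - 1‖ ≤ (p : ℝ)⁻¹) : ζ = 1 := by
  have hp : p.Prime := Fact.out
  have hp3 : 3 ≤ p := by
    have := hp.two_le
    omega
  by_contra hne
  set u : PadicAlgCl p := ζ - 1 with hu
  have hu0 : u ≠ 0 := sub_ne_zero.mpr hne
  have hpos : (0 : ℝ) < (p : ℝ)⁻¹ := by
    have : (0 : ℝ) < p := by exact_mod_cast hp.pos
    positivity
  have hplt : (p : ℝ)⁻¹ < 1 := by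
    have : (1 : ℝ) < p := by exact_mod_cast hp.one_lt
    exact inv_lt_one_of_one_lt₀ this
  have hζu : ζ = u + 1 := by rw [hu]; ring
  have h1 : ∑ m ∈ Finset.range (p + 1), u ^ m * 1 ^ (p - m) * ((p.choose m : ℕ) : PadicAlgCl p) = 1 := by
    rw [← add_pow, ← hζu, hζ]
  rw [Finset.sum_range_succ'] at h1
  simp only [one_pow, mul_one, pow_zero, Nat.choose_zero_right, Nat.cast_one] at h1
  have h2 : ∑ m ∈ Finset.range p, u ^ (m + 1) * ((p.choose (m + 1) : ℕ) : PadicAlgCl p) = 0 := by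
    have := h1
    linear_combination this
  have h3 : u * ∑ m ∈ Finset.range p, u ^ m * ((p.choose (m + 1) : ℕ) : PadicAlgCl p) = 0 := by
    rw [Finset.mul_sum, ← h2]
    refine Finset.sum_congr rfl fun m _ => ?_
    ring
  have h4 : ∑ m ∈ Finset.range p, u ^ m * ((p.choose (m + 1) : ℕ) : PadicAlgCl p) = 0 :=
    (mul_eq_zero.mp h3).resolve_left hu0
  obtain ⟨n, hn⟩ : ∃ n, p = n + 1 := ⟨p - 1, by omega⟩
  have h5 : ∑ m ∈ Finset.range (n + 1), u ^ m * ((p.choose (m + 1) : ℕ) : PadicAlgCl p) = 0 := by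
    rw [← hn]; exact h4
  rw [Finset.sum_range_succ'] at h5
  simp only [pow_zero, one_mul, zero_add, Nat.choose_one_right] at h5
  have h6 : ((p : ℕ) : PadicAlgCl p) =
      - ∑ m ∈ Finset.range n, u ^ (m + 1) * ((p.choose (m + 1 + 1) : ℕ) : PadicAlgCl p) := by
    rw [eq_neg_iff_add_eq_zero, add_comm]
    exact h5
  have h7 : ‖((p : ℕ) : PadicAlgCl p)‖ < (p : ℝ)⁻¹ := by
    rw [h6, norm_neg]
    refine ce3_norm_sum_lt p _ _ hpos ?_
    intro m hm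
    rw [Finset.mem_range] at hm
    rw [norm_mul, norm_pow]
    have hun : ‖u‖ ^ (m + 1) ≤ (p : ℝ)⁻¹ ^ (m + 1) :=
      pow_le_pow_left₀ (norm_nonneg _) hnorm _
    by_cases hlast : m + 2 = p
    · -- the term `u ^ (p - 1)`
      have hc : p.choose (m + 1 + 1) = 1 := by
        rw [show m + 1 + 1 = p by omega, Nat.choose_self]
      rw [hc, Nat.cast_one, norm_one, mul_one]
      have hm1 : 1 ≤ m := by omega
      calc ‖u‖ ^ (m + 1) ≤ (p : ℝ)⁻¹ ^ (m + 1) := hun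
        _ ≤ (p : ℝ)⁻¹ ^ 2 := pow_le_pow_of_le_one hpos.le hplt.le (by omega)
        _ < (p : ℝ)⁻¹ := by
          rw [pow_two]
          calc (p : ℝ)⁻¹ * (p : ℝ)⁻¹ < (p : ℝ)⁻¹ * 1 := mul_lt_mul_of_pos_left hplt hpos
            _ = (p : ℝ)⁻¹ := mul_one _
    · have hlt : m + 2 < p := by omega
      have hdvd : p ∣ p.choose (m + 1 + 1) :=
        hp.dvd_choose_self (by omega) (by omega)
      have hc := ce3_norm_natCast_le_of_dvd p hdvd
      have hun1 : ‖u‖ ^ (m + 1) ≤ (p : ℝ)⁻¹ := by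
        calc ‖u‖ ^ (m + 1) ≤ (p : ℝ)⁻¹ ^ (m + 1) := hun
          _ ≤ (p : ℝ)⁻¹ ^ 1 := pow_le_pow_of_le_one hpos.le hplt.le (by omega)
          _ = (p : ℝ)⁻¹ := pow_one _
      calc ‖u‖ ^ (m + 1) * ‖((p.choose (m + 1 + 1) : ℕ) : PadicAlgCl p)‖
          ≤ (p : ℝ)⁻¹ * (p : ℝ)⁻¹ := mul_le_mul hun1 hc (norm_nonneg _) hpos.le
        _ < (p : ℝ)⁻¹ * 1 := mul_lt_mul_of_pos_left hplt hpos
        _ = (p : ℝ)⁻¹ := mul_one _
  rw [ce3_norm_natCast_prime] at h7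
  exact lt_irrefl _ h7


/-- every automorphism acts on `μ_p(Ω)` by a power map -/
theorem ce3_exists_pow (σ : ce3D p) :
    ∃ a : ℕ, ∀ ζ : PadicAlgCl p, ζ ^ p = 1 → σ ζ = ζ ^ a := by
  have hp : p.Prime := Fact.out
  have : NeZero p := ⟨hp.ne_zero⟩
  obtain ⟨m, hm⟩ := rootsOfUnity.integer_power_of_ringEquiv (L := PadicAlgCl p) p σ.toRingEquiv
  refine ⟨(m % (p : ℤ)).toNat, fun ζ hζ => ?_⟩
  have hζu : IsUnit ζ := IsUnit.of_pow_eq_one hζ hp.ne_zero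
  obtain ⟨u, rfl⟩ := hζu
  have hu : u ∈ rootsOfUnity p (PadicAlgCl p) := by
    rw [mem_rootsOfUnity]
    exact Units.ext (by simpa using hζ)
  have h1 := hm ⟨u, hu⟩
  have h2 : (σ.toRingEquiv (u : PadicAlgCl p)) = σ (u : PadicAlgCl p) := rfl
  rw [← h2, h1]
  have hup : u ^ (p : ℤ) = 1 := by
    rw [zpow_natCast]; exact hu
  have h3 : u ^ m = u ^ ((m % (p : ℤ)).toNat : ℤ) := by
    have hnn : 0 ≤ m % (p : ℤ) := Int.emod_nonneg _ (by exact_mod_cast hp.ne_zero)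
    rw [Int.toNat_of_nonneg hnn]
    conv_lhs => rw [← Int.emod_add_mul_ediv m p, zpow_add, zpow_mul, hup, one_zpow, mul_one]
  simp only
  rw [h3, zpow_natCast, Units.val_pow_eq_pow_val]

/-- `Ω^D = ℚ_p` -/
theorem ce3_mem_range_of_fixed {x : PadicAlgCl p} (h : ∀ τ : ce3D p, τ x = x) :
    x ∈ Set.range (algebraMap ℚ_[p] (PadicAlgCl p)) :=
  (InfiniteGalois.mem_range_algebraMap_iff_fixed x).mpr h

end Fermat.Agent.S56
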