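/-
S56 / CE3: finite flat models in FUNCTION form.

`N` a finite commutative group with an action of `D = Gal(ℚ̄_p/ℚ_p)`.  A `Ce3Model p N` is a
`ℤ_p`-subalgebra `A` of the functions `N → Ω` (`Ω = PadicAlgCl p`), finitely generated as a module,
consisting of `D`-equivariant functions, separating the points of `N`, and stable under the
comultiplication `φ ↦ ((f, g) ↦ φ (f * g))`.  (For `H` a finite flat commutative Hopf algebra over
`ℤ_p` and `N ≤ Hom_alg(H, Ω)` a `D`-stable subgroup, `A := {f ↦ f h | h ∈ H}` is such a model; models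
restrict to `D`-stable subgroups.)

Main result of this file: `Ce3Model.exists_basis` - a `ℤ_p`-basis of `A` is an `Ω`-basis of all
functions `N → Ω` (Galois descent + separation of points).
-/
import Fermat.Agent.S56.Ce.Basic

set_option autoImplicit false

namespace Fermat.Agent.S56

variable (p : ℕ) [Fact p.Prime]

theorem ce3_algebraMap_injective :
    Function.Injective (algebraMap ℤ_[p] (PadicAlgCl p)) :=
  (algebraMap ℚ_[p] (PadicAlgCl p)).injective.comp (IsFractionRing.injective ℤ_[p] ℚ_[p])

instance ce3_isTorsionFree : Module.IsTorsionFree ℤ_[p] (PadicAlgCl p) := by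
  rw [Module.isTorsionFree_iff_algebraMap_injective]
  exact ce3_algebraMap_injective p

variable (N : Type) [CommGroup N] [Finite N] [MulDistribMulAction (ce3D p) N]

/-- a finite flat model of the `D`-group `N`, in function form -/
structure Ce3Model where
  /-- the algebra of integral functions -/
  A : Subalgebra ℤ_[p] (N → PadicAlgCl p)
  fg : (Subalgebra.toSubmodule A).FG
  equivariant : ∀ φ ∈ A, ∀ (τ : ce3D p) (f : N), φ (τ • f) = τ (φ f)
  separates : ∀ f g : N, (∀ φ ∈ A, φ f = φ g) → f = g
  comul : ∀ φ ∈ A, (fun x : N × N => φ (x.1 * x.2)) ∈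
    Submodule.span ℤ_[p] {ψ : N × N → PadicAlgCl p |
      ∃ φ₁ ∈ A, ∃ φ₂ ∈ A, ψ = fun x => φ₁ x.1 * φ₂ x.2}

variable {p N}

omit [Finite N] in
/-- Galois descent of linear independence for equivariant functions. -/
theorem ce3_linearIndependent_of_equivariant {ι : Type*} (v : ι → N → PadicAlgCl p)
    (hv : LinearIndependent ℚ_[p] v)
    (heq : ∀ i (τ : ce3D p) (f : N), v i (τ • f) = τ (v i f)) :
    LinearIndependent (PadicAlgCl p) v := by
  classical
  rw [linearIndependent_iff']
  intro s
  induction s using Finset.induction_on with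
  | empty => intro g _ i hi; simp at hi
  | insert j s hj ih =>
    intro g hg
    rw [Finset.sum_insert hj] at hg
    by_cases hgj : g j = 0
    · rw [hgj, zero_smul, zero_add] at hg
      intro i hi
      rcases Finset.mem_insert.mp hi with rfl | hi
      · exact hgj
      · exact ih g hg i hi
    · exfalso
      -- normalise
      set g' : ι → PadicAlgCl p := fun i => g i / g j with hg'
      have hrel : v j + ∑ i ∈ s, g' i • v i = 0 := by
        have h1 : (g j)⁻¹ • (g j • v j + ∑ i ∈ s, g i • v i) = 0 := by rw [hg, smul_zero]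
        rw [smul_add, smul_smul, inv_mul_cancel₀ hgj, one_smul, Finset.smul_sum] at h1
        rw [← h1]
        congr 1
        refine Finset.sum_congr rfl fun i _ => ?_
        rw [smul_smul, hg']
        simp only
        rw [div_eq_inv_mul]
      -- the coefficients are Galois invariant
      have hinv : ∀ (τ : ce3D p), ∀ i ∈ s, τ (g' i) = g' i := by
        intro τ
        have h2 : ∑ i ∈ s, (τ (g' i) - g' i) • v i = 0 := by
          funext f
          have h3 := congrFun hrel (τ⁻¹ • f)
          have h4 := congrFun hrel f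
          simp only [Pi.add_apply, Finset.sum_apply, Pi.smul_apply, smul_eq_mul,
            Pi.zero_apply] at h3 h4 ⊢
          have h5 := congrArg τ h3
          rw [map_add, map_sum, map_zero, ← heq, smul_inv_smul] at h5
          have h6 : ∀ i ∈ s, τ (g' i * v i (τ⁻¹ • f)) = τ (g' i) * v i f := by
            intro i _
            rw [map_mul, ← heq, smul_inv_smul]
          rw [Finset.sum_congr rfl h6] at h5
          have h7 : ∑ i ∈ s, (τ (g' i) - g' i) * v i f =
              (v j f + ∑ i ∈ s, τ (g' i) * v i f) - (v j f + ∑ i ∈ s, g' i * v i f) := by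
            rw [add_sub_add_left_eq_sub, ← Finset.sum_sub_distrib]
            refine Finset.sum_congr rfl fun i _ => ?_
            ring
          rw [h7, h5, h4, sub_zero]
        intro i hi
        exact sub_eq_zero.mp (ih _ h2 i hi)
      -- so they lie in `ℚ_p`
      have hrat : ∀ i ∈ s, ∃ c : ℚ_[p], g' i = algebraMap ℚ_[p] (PadicAlgCl p) c := by
        intro i hi
        obtain ⟨c, hc⟩ := ce3_mem_range_of_fixed p (x := g' i) (fun τ => hinv τ i hi)
        exact ⟨c, hc.symm⟩
      choose! c hc using hrat
      have hrel' : ∑ i ∈ insert j s, (if i = j then (1 : ℚ_[p]) else c i) • v i = 0 := by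
        rw [Finset.sum_insert hj, if_pos rfl, one_smul, ← hrel]
        congr 1
        refine Finset.sum_congr rfl fun i hi => ?_
        have hij : i ≠ j := fun h => hj (h ▸ hi)
        rw [if_neg hij, hc i hi, algebraMap_smul]
      have h8 := linearIndependent_iff'.mp hv (insert j s) _ hrel' j (Finset.mem_insert_self j s)
      rw [if_pos rfl] at h8
      exact one_ne_zero h8


omit [CommGroup N] [Finite N] [MulDistribMulAction (ce3D p) N] in
/-- a subalgebra of functions on a finite set which separates points is everything -/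
theorem ce3_subalgebra_eq_top [Finite N] (S : Subalgebra (PadicAlgCl p) (N → PadicAlgCl p))
    (hsep : ∀ f g : N, f ≠ g → ∃ φ ∈ S, φ f ≠ φ g) : S = ⊤ := by
  classical
  have := Fintype.ofFinite N
  -- indicator functions
  have hind : ∀ f : N, (Pi.single f (1 : PadicAlgCl p) : N → PadicAlgCl p) ∈ S := by
    intro f
    choose! φ hφS hφ using hsep f
    have hprod : (∏ g ∈ Finset.univ.erase f,
        ((φ g f - φ g g)⁻¹ • (φ g - algebraMap (PadicAlgCl p) (N → PadicAlgCl p) (φ g g)))) ∈ S := by
      refine Subalgebra.prod_mem S fun g hg => ?_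
      have hgf : f ≠ g := fun h => (Finset.ne_of_mem_erase hg) h.symm
      exact S.smul_mem (S.sub_mem (hφS g hgf) (S.algebraMap_mem _)) _
    convert hprod using 1
    funext x
    rw [Finset.prod_apply]
    by_cases hx : x = f
    · subst hx
      rw [Pi.single_eq_same]
      symm
      refine Finset.prod_eq_one fun g hg => ?_
      have hgf : x ≠ g := fun h => (Finset.ne_of_mem_erase hg) h.symm
      have h1 : φ g x - φ g g ≠ 0 := sub_ne_zero.mpr (hφ g hgf)
      simp only [Pi.smul_apply, Pi.sub_apply, smul_eq_mul, Pi.algebraMap_apply,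
        Algebra.algebraMap_self, RingHom.id_apply]
      exact inv_mul_cancel₀ h1
    · rw [Pi.single_eq_of_ne hx]
      symm
      refine Finset.prod_eq_zero (Finset.mem_erase.mpr ⟨hx, Finset.mem_univ x⟩) ?_
      simp
  rw [eq_top_iff]
  intro ψ _
  have h : ψ = ∑ f : N, ψ f • (Pi.single f (1 : PadicAlgCl p) : N → PadicAlgCl p) := by
    funext x
    rw [Finset.sum_apply]
    simp only [Pi.smul_apply, smul_eq_mul]
    rw [Finset.sum_eq_single x]
    · simp
    · intro b _ hb
      rw [Pi.single_eq_of_ne (Ne.symm hb), mul_zero]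
    · intro h; exact absurd (Finset.mem_univ x) h
  rw [h]
  exact S.sum_mem fun f _ => S.smul_mem (hind f) _

/-- A `ℤ_p`-basis of the model is an `Ω`-basis of all functions. -/
theorem Ce3Model.exists_basis (M : Ce3Model p N) :
    ∃ (ι : Type) (_ : Fintype ι) (b : Module.Basis ι (PadicAlgCl p) (N → PadicAlgCl p)),
      (∀ i, b i ∈ M.A) ∧
      ∀ φ ∈ M.A, ∀ i, ∃ c : ℤ_[p], b.repr φ i = algebraMap ℤ_[p] (PadicAlgCl p) c := by
  classical
  set Msub : Submodule ℤ_[p] (N → PadicAlgCl p) := Subalgebra.toSubmodule M.A with hMsub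
  have hfin : Module.Finite ℤ_[p] Msub := Module.Finite.iff_fg.mpr M.fg
  have htf : Module.IsTorsionFree ℤ_[p] Msub :=
    Function.Injective.moduleIsTorsionFree Msub.subtype Subtype.val_injective (fun _ _ => rfl)
  have hfree : Module.Free ℤ_[p] Msub := Module.free_of_finite_type_torsion_free'
  let b₀ := Module.Free.chooseBasis ℤ_[p] Msub
  set v : Module.Free.ChooseBasisIndex ℤ_[p] Msub → N → PadicAlgCl p := fun i => (b₀ i : N → PadicAlgCl p)
    with hvdef
  have hvA : ∀ i, v i ∈ M.A := fun i => (b₀ i).2
  have hvZ : LinearIndependent ℤ_[p] v :=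
    b₀.linearIndependent.map' Msub.subtype (Submodule.ker_subtype _)
  have hvQ : LinearIndependent ℚ_[p] v := (LinearIndependent.iff_fractionRing ℤ_[p] ℚ_[p]).mp hvZ
  have hvΩ : LinearIndependent (PadicAlgCl p) v :=
    ce3_linearIndependent_of_equivariant v hvQ (fun i τ f => M.equivariant _ (hvA i) τ f)
  -- every element of `A` is a `ℤ_p`-combination of the `v i`
  have hcomb : ∀ φ ∈ M.A, ∃ c : Module.Free.ChooseBasisIndex ℤ_[p] Msub → ℤ_[p],
      φ = ∑ i, algebraMap ℤ_[p] (PadicAlgCl p) (c i) • v i := by
    intro φ hφ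
    refine ⟨fun i => b₀.repr ⟨φ, hφ⟩ i, ?_⟩
    have h1 := b₀.sum_repr ⟨φ, hφ⟩
    have h2 := congrArg (Msub.subtype) h1
    rw [map_sum] at h2
    simp only [map_smul, Submodule.subtype_apply] at h2
    refine h2.symm.trans ?_
    refine Finset.sum_congr rfl fun i _ => ?_
    rw [algebraMap_smul]
  -- spanning
  have hspan : ⊤ ≤ Submodule.span (PadicAlgCl p) (Set.range v) := by
    have hS : Algebra.adjoin (PadicAlgCl p) (M.A : Set (N → PadicAlgCl p)) = ⊤ := by
      apply ce3_subalgebra_eq_top
      intro f g hfg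
      by_contra hcon
      apply hfg
      refine M.separates f g fun φ hφ => ?_
      by_contra hne
      exact hcon ⟨φ, Algebra.subset_adjoin hφ, hne⟩
    have h1 : Subalgebra.toSubmodule (Algebra.adjoin (PadicAlgCl p) (M.A : Set (N → PadicAlgCl p))) =
        Submodule.span (PadicAlgCl p) (Submonoid.closure (M.A : Set (N → PadicAlgCl p))) :=
      Algebra.adjoin_eq_span _ _
    rw [hS] at h1
    have h2 : (Submonoid.closure (M.A : Set (N → PadicAlgCl p)) : Set (N → PadicAlgCl p)) = M.A := by
      have : (M.A : Set (N → PadicAlgCl p)) = (M.A.toSubmonoid : Set (N → PadicAlgCl p)) := rfl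
      rw [this, Submonoid.closure_eq]
    rw [Algebra.top_toSubmodule] at h1
    rw [h1, h2]
    rw [Submodule.span_le]
    intro φ hφ
    obtain ⟨c, hc⟩ := hcomb φ hφ
    rw [hc]
    exact Submodule.sum_mem _ fun i _ =>
      Submodule.smul_mem _ _ (Submodule.subset_span (Set.mem_range_self i))
  refine ⟨Module.Free.ChooseBasisIndex ℤ_[p] Msub, inferInstance, Module.Basis.mk hvΩ hspan, ?_, ?_⟩
  · intro i
    rw [Module.Basis.mk_apply]
    exact hvA i
  · intro φ hφ i
    obtain ⟨c, hc⟩ := hcomb φ hφ
    refine ⟨c i, ?_⟩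
    have h3 : φ = ∑ j, algebraMap ℤ_[p] (PadicAlgCl p) (c j) • (Module.Basis.mk hvΩ hspan) j := by
      rw [hc]
      refine Finset.sum_congr rfl fun j _ => ?_
      rw [Module.Basis.mk_apply]
    rw [h3, Module.Basis.repr_sum_self]

end Fermat.Agent.S56
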