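/-
S56 / CE3: integral coordinates with respect to a model.

`M.basis` : an `Ω`-basis of all functions `N → Ω` consisting of elements of `M.A`, in which the
elements of `M.A` have `ℤ_p`-coordinates.  `M.IsInt φ` (`M.IsSmall φ`): all coordinates of `φ` have
norm `≤ 1` (`< 1`).  Integral functions form a ring in which the small ones form an ideal; the
semilinear Galois action `ce3Star` acts on coordinates; integral functions have integral values.
-/
import Fermat.Agent.S56.Ce.Model

set_option autoImplicit false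

namespace Fermat.Agent.S56

variable {p : ℕ} [Fact p.Prime]
variable {N : Type} [CommGroup N] [Finite N] [MulDistribMulAction (ce3D p) N]

namespace Ce3Model

variable (M : Ce3Model p N)

/-- index type of the chosen basis -/
def ι : Type := M.exists_basis.choose

noncomputable instance : Fintype M.ι := M.exists_basis.choose_spec.choose

/-- the chosen basis -/
noncomputable def basis : Module.Basis M.ι (PadicAlgCl p) (N → PadicAlgCl p) :=
  M.exists_basis.choose_spec.choose_spec.choose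

theorem basis_mem (i : M.ι) : M.basis i ∈ M.A :=
  M.exists_basis.choose_spec.choose_spec.choose_spec.1 i

theorem repr_of_mem {φ : N → PadicAlgCl p} (hφ : φ ∈ M.A) (i : M.ι) :
    ∃ c : ℤ_[p], M.basis.repr φ i = algebraMap ℤ_[p] (PadicAlgCl p) c :=
  M.exists_basis.choose_spec.choose_spec.choose_spec.2 φ hφ i

/-- expansion of a function in the basis, pointwise -/
theorem apply_eq_sum (φ : N → PadicAlgCl p) (f : N) :
    φ f = ∑ i, M.basis.repr φ i * M.basis i f := by
  have h := congrFun (M.basis.sum_repr φ) f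
  rw [Finset.sum_apply] at h
  rw [← h]
  refine Finset.sum_congr rfl fun i _ => ?_
  rfl

/-- uniqueness of coordinates, pointwise form -/
theorem repr_eq_of_forall {φ : N → PadicAlgCl p} {x : M.ι → PadicAlgCl p}
    (h : ∀ f, φ f = ∑ i, x i * M.basis i f) (i : M.ι) : M.basis.repr φ i = x i := by
  have h1 : φ = ∑ j, x j • M.basis j := by
    funext f
    rw [h f, Finset.sum_apply]
    rfl
  rw [h1, Module.Basis.repr_sum_self]

/-- all coordinates have norm `≤ 1` -/
def IsInt (φ : N → PadicAlgCl p) : Prop := ∀ i, ‖M.basis.repr φ i‖ ≤ 1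

/-- all coordinates have norm `< 1` -/
def IsSmall (φ : N → PadicAlgCl p) : Prop := ∀ i, ‖M.basis.repr φ i‖ < 1

theorem IsSmall.isInt {φ : N → PadicAlgCl p} (h : M.IsSmall φ) : M.IsInt φ := fun i => (h i).le

theorem isInt_of_mem {φ : N → PadicAlgCl p} (hφ : φ ∈ M.A) : M.IsInt φ := by
  intro i
  obtain ⟨c, hc⟩ := M.repr_of_mem hφ i
  rw [hc]
  exact ce3_norm_algebraMap_le_one p c

theorem isInt_one : M.IsInt 1 := M.isInt_of_mem M.A.one_mem

theorem isSmall_zero : M.IsSmall 0 := fun i => by simp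

theorem IsInt.add {φ ψ : N → PadicAlgCl p} (h1 : M.IsInt φ) (h2 : M.IsInt ψ) : M.IsInt (φ + ψ) := by
  intro i
  rw [map_add, Finsupp.add_apply]
  exact (PadicAlgCl.isNonarchimedean p _ _).trans (max_le (h1 i) (h2 i))

theorem IsSmall.add {φ ψ : N → PadicAlgCl p} (h1 : M.IsSmall φ) (h2 : M.IsSmall ψ) :
    M.IsSmall (φ + ψ) := by
  intro i
  rw [map_add, Finsupp.add_apply]
  exact lt_of_le_of_lt (PadicAlgCl.isNonarchimedean p _ _) (max_lt (h1 i) (h2 i))

theorem IsInt.neg {φ : N → PadicAlgCl p} (h1 : M.IsInt φ) : M.IsInt (-φ) := by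
  intro i
  rw [map_neg, Finsupp.neg_apply, norm_neg]
  exact h1 i

theorem IsSmall.neg {φ : N → PadicAlgCl p} (h1 : M.IsSmall φ) : M.IsSmall (-φ) := by
  intro i
  rw [map_neg, Finsupp.neg_apply, norm_neg]
  exact h1 i

theorem IsInt.sub {φ ψ : N → PadicAlgCl p} (h1 : M.IsInt φ) (h2 : M.IsInt ψ) : M.IsInt (φ - ψ) := by
  rw [sub_eq_add_neg]
  exact h1.add M (h2.neg M)

theorem IsSmall.sub {φ ψ : N → PadicAlgCl p} (h1 : M.IsSmall φ) (h2 : M.IsSmall ψ) :
    M.IsSmall (φ - ψ) := by
  rw [sub_eq_add_neg]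
  exact h1.add M (h2.neg M)

/-- multiplication constants: coordinates of a product -/
theorem repr_mul (φ ψ : N → PadicAlgCl p) (k : M.ι) :
    M.basis.repr (φ * ψ) k =
      ∑ i, ∑ j, M.basis.repr φ i * M.basis.repr ψ j * M.basis.repr (M.basis i * M.basis j) k := by
  apply M.repr_eq_of_forall
  intro f
  rw [Pi.mul_apply, M.apply_eq_sum φ f, M.apply_eq_sum ψ f, Finset.sum_mul_sum]
  have h1 : ∀ i j, M.basis i f * M.basis j f =
      ∑ k, M.basis.repr (M.basis i * M.basis j) k * M.basis k f := by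
    intro i j
    rw [← M.apply_eq_sum, Pi.mul_apply]
  calc ∑ i, ∑ j, M.basis.repr φ i * M.basis i f * (M.basis.repr ψ j * M.basis j f)
      = ∑ i, ∑ j, ∑ k, M.basis.repr φ i * M.basis.repr ψ j *
          M.basis.repr (M.basis i * M.basis j) k * M.basis k f := by
        refine Finset.sum_congr rfl fun i _ => Finset.sum_congr rfl fun j _ => ?_
        rw [show M.basis.repr φ i * M.basis i f * (M.basis.repr ψ j * M.basis j f) =
          M.basis.repr φ i * M.basis.repr ψ j * (M.basis i f * M.basis j f) by ring, h1 i j,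
          Finset.mul_sum]
        refine Finset.sum_congr rfl fun k _ => ?_
        ring
    _ = ∑ i, ∑ k, ∑ j, M.basis.repr φ i * M.basis.repr ψ j *
          M.basis.repr (M.basis i * M.basis j) k * M.basis k f :=
        Finset.sum_congr rfl fun i _ => Finset.sum_comm
    _ = ∑ k, ∑ i, ∑ j, M.basis.repr φ i * M.basis.repr ψ j *
          M.basis.repr (M.basis i * M.basis j) k * M.basis k f := Finset.sum_comm
    _ = ∑ k, (∑ i, ∑ j, M.basis.repr φ i * M.basis.repr ψ j *
          M.basis.repr (M.basis i * M.basis j) k) * M.basis k f := by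
        refine Finset.sum_congr rfl fun k _ => ?_
        rw [Finset.sum_mul]
        refine Finset.sum_congr rfl fun i _ => ?_
        rw [Finset.sum_mul]

theorem norm_repr_basis_mul_le (i j k : M.ι) :
    ‖M.basis.repr (M.basis i * M.basis j) k‖ ≤ 1 :=
  M.isInt_of_mem (M.A.mul_mem (M.basis_mem i) (M.basis_mem j)) k

theorem IsInt.mul {φ ψ : N → PadicAlgCl p} (h1 : M.IsInt φ) (h2 : M.IsInt ψ) : M.IsInt (φ * ψ) := by
  intro k
  rw [M.repr_mul]
  refine ce3_norm_sum_le p _ _ zero_le_one fun i _ => ce3_norm_sum_le p _ _ zero_le_one fun j _ => ?_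
  rw [norm_mul, norm_mul]
  calc ‖M.basis.repr φ i‖ * ‖M.basis.repr ψ j‖ * ‖M.basis.repr (M.basis i * M.basis j) k‖
      ≤ 1 * 1 * 1 := by
        gcongr
        · exact h1 i
        · exact h2 j
        · exact M.norm_repr_basis_mul_le i j k
    _ = 1 := by norm_num

theorem IsSmall.mul_isInt {φ ψ : N → PadicAlgCl p} (h1 : M.IsSmall φ) (h2 : M.IsInt ψ) :
    M.IsSmall (φ * ψ) := by
  intro k
  rw [M.repr_mul]
  refine ce3_norm_sum_lt p _ _ zero_lt_one fun i _ => ce3_norm_sum_lt p _ _ zero_lt_one fun j _ => ?_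
  rw [norm_mul, norm_mul]
  calc ‖M.basis.repr φ i‖ * ‖M.basis.repr ψ j‖ * ‖M.basis.repr (M.basis i * M.basis j) k‖
      ≤ ‖M.basis.repr φ i‖ * 1 * 1 := by
        gcongr
        · exact h2 j
        · exact M.norm_repr_basis_mul_le i j k
    _ = ‖M.basis.repr φ i‖ := by ring
    _ < 1 := h1 i

end Ce3Model


/-- the semilinear action of `D` on functions -/
noncomputable def ce3Star (τ : ce3D p) (φ : N → PadicAlgCl p) : N → PadicAlgCl p := fun f => τ (φ (τ⁻¹ • f))

omit [Finite N] in
theorem ce3Star_apply (τ : ce3D p) (φ : N → PadicAlgCl p) (f : N) :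
    ce3Star τ φ f = τ (φ (τ⁻¹ • f)) := rfl

namespace Ce3Model

variable (M : Ce3Model p N)

omit [Finite N] in
theorem norm_apply_le_one {φ : N → PadicAlgCl p} (hφ : φ ∈ M.A) (f : N) : ‖φ f‖ ≤ 1 := by
  have h1 : IsIntegral ℤ_[p] φ := IsIntegral.of_mem_of_fg M.A M.fg φ hφ
  have h2 : IsIntegral ℤ_[p] (Pi.evalAlgHom ℤ_[p] (fun _ : N => PadicAlgCl p) f φ) := h1.map _
  exact ce3_norm_le_one_of_isIntegral p h2

theorem norm_apply_le {φ : N → PadicAlgCl p} {c : ℝ} (hc : 0 ≤ c)
    (h : ∀ i, ‖M.basis.repr φ i‖ ≤ c) (f : N) : ‖φ f‖ ≤ c := by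
  rw [M.apply_eq_sum φ f]
  refine ce3_norm_sum_le p _ _ hc fun i _ => ?_
  rw [norm_mul]
  calc ‖M.basis.repr φ i‖ * ‖M.basis i f‖ ≤ c * 1 :=
        mul_le_mul (h i) (M.norm_apply_le_one (M.basis_mem i) f) (norm_nonneg _) hc
    _ = c := mul_one c

theorem repr_star (τ : ce3D p) (φ : N → PadicAlgCl p) (i : M.ι) :
    M.basis.repr (ce3Star τ φ) i = τ (M.basis.repr φ i) := by
  apply M.repr_eq_of_forall (x := fun i => τ (M.basis.repr φ i))
  intro f
  rw [ce3Star_apply, M.apply_eq_sum φ (τ⁻¹ • f), map_sum]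
  refine Finset.sum_congr rfl fun j _ => ?_
  rw [map_mul, ← M.equivariant _ (M.basis_mem j), smul_inv_smul]

theorem IsInt.star {φ : N → PadicAlgCl p} (h : M.IsInt φ) (τ : ce3D p) : M.IsInt (ce3Star τ φ) := by
  intro i
  rw [M.repr_star, ce3_norm_algEquiv]
  exact h i

theorem IsSmall.star {φ : N → PadicAlgCl p} (h : M.IsSmall φ) (τ : ce3D p) :
    M.IsSmall (ce3Star τ φ) := by
  intro i
  rw [M.repr_star, ce3_norm_algEquiv]
  exact h i

/-- inertia moves integral functions by small ones -/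
theorem isSmall_star_sub {φ : N → PadicAlgCl p} (h : M.IsInt φ) {σ : ce3D p}
    (hσ : σ ∈ ce3Inertia p) : M.IsSmall (ce3Star σ φ - φ) := by
  intro i
  rw [map_sub, Finsupp.sub_apply, M.repr_star]
  exact hσ _ (h i)

/-- comultiplication constants -/
theorem exists_comul (k : M.ι) : ∃ c : M.ι → M.ι → ℤ_[p], ∀ f g : N,
    M.basis k (f * g) =
      ∑ i, ∑ j, algebraMap ℤ_[p] (PadicAlgCl p) (c i j) * (M.basis i f * M.basis j g) := by
  have key : ∀ ψ ∈ Submodule.span ℤ_[p] {ψ : N × N → PadicAlgCl p |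
      ∃ φ₁ ∈ M.A, ∃ φ₂ ∈ M.A, ψ = fun x => φ₁ x.1 * φ₂ x.2},
      ∃ c : M.ι → M.ι → ℤ_[p], ∀ f g : N, ψ (f, g) =
        ∑ i, ∑ j, algebraMap ℤ_[p] (PadicAlgCl p) (c i j) * (M.basis i f * M.basis j g) := by
    intro ψ hψ
    induction hψ using Submodule.span_induction with
    | mem ψ hψ =>
      obtain ⟨φ₁, h1, φ₂, h2, rfl⟩ := hψ
      choose c1 hc1 using M.repr_of_mem h1
      choose c2 hc2 using M.repr_of_mem h2
      refine ⟨fun i j => c1 i * c2 j, fun f g => ?_⟩
      simp only
      rw [M.apply_eq_sum φ₁ f, M.apply_eq_sum φ₂ g, Finset.sum_mul_sum]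
      refine Finset.sum_congr rfl fun i _ => Finset.sum_congr rfl fun j _ => ?_
      rw [hc1, hc2, map_mul]
      ring
    | zero =>
      exact ⟨fun _ _ => 0, fun f g => by simp⟩
    | add ψ₁ ψ₂ _ _ ih1 ih2 =>
      obtain ⟨c1, hc1⟩ := ih1
      obtain ⟨c2, hc2⟩ := ih2
      refine ⟨fun i j => c1 i j + c2 i j, fun f g => ?_⟩
      rw [Pi.add_apply, hc1, hc2, ← Finset.sum_add_distrib]
      refine Finset.sum_congr rfl fun i _ => ?_
      rw [← Finset.sum_add_distrib]
      refine Finset.sum_congr rfl fun j _ => ?_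
      rw [map_add]; ring
    | smul a ψ _ ih =>
      obtain ⟨c, hc⟩ := ih
      refine ⟨fun i j => a * c i j, fun f g => ?_⟩
      rw [Pi.smul_apply, hc, Finset.smul_sum]
      refine Finset.sum_congr rfl fun i _ => ?_
      rw [Finset.smul_sum]
      refine Finset.sum_congr rfl fun j _ => ?_
      rw [map_mul, Algebra.smul_def]; ring
  exact key _ (M.comul _ (M.basis_mem k))

/-- the functions `(f, g) ↦ b i f * b j g` are linearly independent -/
theorem eq_zero_of_forall_sum (y : M.ι → M.ι → PadicAlgCl p)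
    (h : ∀ f g : N, ∑ i, ∑ j, y i j * (M.basis i f * M.basis j g) = 0) (i j : M.ι) : y i j = 0 := by
  -- fix `g`
  have h1 : ∀ g : N, ∀ i, ∑ j, y i j * M.basis j g = 0 := by
    intro g
    have h2 : ∑ i, (∑ j, y i j * M.basis j g) • M.basis i = 0 := by
      funext f
      rw [Finset.sum_apply, Pi.zero_apply, ← h f g]
      refine Finset.sum_congr rfl fun i _ => ?_
      rw [Pi.smul_apply, smul_eq_mul, Finset.sum_mul]
      refine Finset.sum_congr rfl fun j _ => ?_
      ring
    intro i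
    exact (Fintype.linearIndependent_iff.mp M.basis.linearIndependent _ h2) i
  have h3 : ∑ j, y i j • M.basis j = 0 := by
    funext g
    rw [Finset.sum_apply, Pi.zero_apply, ← h1 g i]
    rfl
  exact (Fintype.linearIndependent_iff.mp M.basis.linearIndependent _ h3) j

end Ce3Model
end Fermat.Agent.S56
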