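/-
S56 / CE3: (K2) every character `N →* Ωˣ` has INTEGRAL coordinates with respect to a finite flat
model (this is where the integrality of the comultiplication is used).
-/
import Fermat.Agent.S56.Ce.Coord
set_option autoImplicit false
namespace Fermat.Agent.S56
variable {p : ℕ} [Fact p.Prime]
variable {N : Type} [CommGroup N] [Finite N] [MulDistribMulAction (ce3D p) N]

/-- a character as a function -/
noncomputable def ce3CharFun (χ : N →* (PadicAlgCl p)ˣ) : N → PadicAlgCl p := fun f => (χ f : PadicAlgCl p)

omit [Finite N] [MulDistribMulAction (ce3D p) N] in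
theorem ce3CharFun_apply (χ : N →* (PadicAlgCl p)ˣ) (f : N) :
    ce3CharFun χ f = (χ f : PadicAlgCl p) := rfl

omit [Finite N] [MulDistribMulAction (ce3D p) N] in
theorem ce3CharFun_mul (χ ψ : N →* (PadicAlgCl p)ˣ) :
    ce3CharFun (χ * ψ) = ce3CharFun χ * ce3CharFun ψ := by
  funext f
  simp [ce3CharFun_apply]

omit [Finite N] [MulDistribMulAction (ce3D p) N] in
theorem ce3CharFun_one : ce3CharFun (1 : N →* (PadicAlgCl p)ˣ) = 1 := by
  funext f
  simp [ce3CharFun_apply]

namespace Ce3Model
variable (M : Ce3Model p N)

/-- (K2) every character of `N` has integral coordinates -/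
theorem isInt_charFun (χ : N →* (PadicAlgCl p)ˣ) : M.IsInt (ce3CharFun χ) := by
  classical
  set x : M.ι → PadicAlgCl p := fun i => M.basis.repr (ce3CharFun χ) i with hx
  choose c hc using M.exists_comul
  -- multiplicativity in coordinates
  have hmul : ∀ i j, x i * x j = ∑ k, algebraMap ℤ_[p] (PadicAlgCl p) (c k i j) * x k := by
    intro i j
    have h0 := M.eq_zero_of_forall_sum
      (fun i j => x i * x j - ∑ k, algebraMap ℤ_[p] (PadicAlgCl p) (c k i j) * x k) ?_ i j
    · exact sub_eq_zero.mp h0
    intro f g
    have h1 : ce3CharFun χ (f * g) = ce3CharFun χ f * ce3CharFun χ g := by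
      simp [ce3CharFun_apply]
    rw [M.apply_eq_sum (ce3CharFun χ) (f * g), M.apply_eq_sum (ce3CharFun χ) f,
      M.apply_eq_sum (ce3CharFun χ) g, Finset.sum_mul_sum] at h1
    have h2 : ∑ k, x k * M.basis k (f * g) =
        ∑ i, ∑ j, (∑ k, algebraMap ℤ_[p] (PadicAlgCl p) (c k i j) * x k) *
          (M.basis i f * M.basis j g) := by
      calc ∑ k, x k * M.basis k (f * g)
          = ∑ k, ∑ i, ∑ j, algebraMap ℤ_[p] (PadicAlgCl p) (c k i j) * x k *
              (M.basis i f * M.basis j g) := by
            refine Finset.sum_congr rfl fun k _ => ?_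
            rw [hc k f g, Finset.mul_sum]
            refine Finset.sum_congr rfl fun i _ => ?_
            rw [Finset.mul_sum]
            refine Finset.sum_congr rfl fun j _ => ?_
            ring
        _ = ∑ i, ∑ k, ∑ j, algebraMap ℤ_[p] (PadicAlgCl p) (c k i j) * x k *
              (M.basis i f * M.basis j g) := Finset.sum_comm
        _ = ∑ i, ∑ j, ∑ k, algebraMap ℤ_[p] (PadicAlgCl p) (c k i j) * x k *
              (M.basis i f * M.basis j g) :=
            Finset.sum_congr rfl fun i _ => Finset.sum_comm
        _ = _ := by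
            refine Finset.sum_congr rfl fun i _ => Finset.sum_congr rfl fun j _ => ?_
            rw [Finset.sum_mul]
    simp only [sub_mul]
    simp_rw [Finset.sum_sub_distrib]
    rw [sub_eq_zero, ← h2]
    refine Eq.trans ?_ h1.symm
    refine Finset.sum_congr rfl fun i _ => Finset.sum_congr rfl fun j _ => ?_
    simp only [hx]
    ring
  -- the `ℤ_p`-module spanned by the coordinates
  set L : Submodule ℤ_[p] (PadicAlgCl p) := Submodule.span ℤ_[p] (Set.range x) with hL
  have hLfg : L.FG := Submodule.fg_span (Set.finite_range x)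
  have hLne : L ≠ ⊥ := by
    intro hbot
    have h0 : ∀ i, x i = 0 := by
      intro i
      have : x i ∈ L := Submodule.subset_span (Set.mem_range_self i)
      rw [hbot, Submodule.mem_bot] at this
      exact this
    have h1 := M.apply_eq_sum (ce3CharFun χ) 1
    rw [ce3CharFun_apply, map_one, Units.val_one] at h1
    have h2 : ∑ i, M.basis.repr (ce3CharFun χ) i * M.basis i 1 = 0 :=
      Finset.sum_eq_zero fun i _ => by
        have := h0 i
        simp only [hx] at this
        rw [this, zero_mul]
    rw [h2] at h1
    exact one_ne_zero h1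
  intro i
  have hstab : ∀ n ∈ L, x i • n ∈ L := by
    intro n hn
    induction hn using Submodule.span_induction with
    | mem n hn =>
      obtain ⟨j, rfl⟩ := hn
      rw [smul_eq_mul, hmul i j]
      refine Submodule.sum_mem _ fun k _ => ?_
      rw [← Algebra.smul_def]
      exact Submodule.smul_mem _ _ (Submodule.subset_span (Set.mem_range_self k))
    | zero => rw [smul_zero]; exact L.zero_mem
    | add a b _ _ iha ihb => rw [smul_add]; exact L.add_mem iha ihb
    | smul a n _ ih => rw [smul_comm]; exact L.smul_mem a ih
  have hint : IsIntegral ℤ_[p] (x i) := isIntegral_of_smul_mem_submodule L hLne hLfg (x i) hstab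
  exact ce3_norm_le_one_of_isIntegral p hint

end Ce3Model
end Fermat.Agent.S56
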