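/-
S56 / CE3: the multiplicative part of a finite flat model.

`M.X0`  : characters `χ : N →* Ωˣ` with `χ - 1` small (the connected part of the Cartier dual)
`M.Nm`  : the annihilator of `M.X0` in `N` (the multiplicative part of `N`)
(m1) `Ce3Model.smul_eq_pow_of_mem_Nm` : inertia acts on `M.Nm` through the cyclotomic character
(m2) `Ce3Model.eq_one_of_star_eq`     : an inertia-invariant character trivial on `M.Nm` is trivial
(CE) `Ce3Model.sup_Nm_eq_top`         : if inertia acts on `N / N2` through the cyclotomic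
      character then `N = N2 * M.Nm`.
The local-field input is the hypothesis `Ce3Unr p` (the fixed field of inertia is unramified).
-/
import Fermat.Agent.S56.Ce.Char
set_option autoImplicit false
namespace Fermat.Agent.S56
variable {p : ℕ} [Fact p.Prime]
variable {N : Type} [CommGroup N] [Finite N] [MulDistribMulAction (ce3D p) N]

/-- (F1) the fixed field of inertia is unramified: its elements of norm `< 1` have norm `≤ 1/p` -/
def Ce3Unr (p : ℕ) [Fact p.Prime] : Prop :=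
  ∀ a : PadicAlgCl p, (∀ σ ∈ ce3Inertia p, σ a = a) → ‖a‖ < 1 → ‖a‖ ≤ (p : ℝ)⁻¹

/-- the semilinear action of `D` on characters -/
noncomputable def ce3StarChar (τ : ce3D p) (χ : N →* (PadicAlgCl p)ˣ) : N →* (PadicAlgCl p)ˣ where
  toFun f := Units.map (MonoidHomClass.toMonoidHom τ) (χ (τ⁻¹ • f))
  map_one' := by rw [smul_one, map_one, map_one]
  map_mul' f g := by rw [smul_mul', map_mul, map_mul]

omit [Finite N] in
theorem ce3StarChar_apply (τ : ce3D p) (χ : N →* (PadicAlgCl p)ˣ) (f : N) :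
    ((ce3StarChar τ χ f : (PadicAlgCl p)ˣ) : PadicAlgCl p) = τ ((χ (τ⁻¹ • f) : (PadicAlgCl p)ˣ) : PadicAlgCl p) :=
  rfl

omit [Finite N] in
theorem ce3CharFun_starChar (τ : ce3D p) (χ : N →* (PadicAlgCl p)ˣ) :
    ce3CharFun (ce3StarChar τ χ) = ce3Star τ (ce3CharFun χ) := rfl

omit [Finite N] in
theorem ce3Star_sub (τ : ce3D p) (φ ψ : N → PadicAlgCl p) :
    ce3Star τ (φ - ψ) = ce3Star τ φ - ce3Star τ ψ := by
  funext f
  simp [ce3Star_apply]

omit [Finite N] in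
theorem ce3Star_one (τ : ce3D p) : ce3Star τ (1 : N → PadicAlgCl p) = 1 := by
  funext f
  simp [ce3Star_apply]

omit [Finite N] in
theorem ce3StarChar_mul (τ : ce3D p) (χ ψ : N →* (PadicAlgCl p)ˣ) :
    ce3StarChar τ (χ * ψ) = ce3StarChar τ χ * ce3StarChar τ ψ := by
  ext f
  simp [ce3StarChar_apply]

omit [Finite N] in
theorem ce3StarChar_starChar (σ τ : ce3D p) (χ : N →* (PadicAlgCl p)ˣ) :
    ce3StarChar σ (ce3StarChar τ χ) = ce3StarChar (σ * τ) χ := by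
  ext f
  simp only [ce3StarChar_apply]
  rw [mul_inv_rev, mul_smul, AlgEquiv.mul_apply]

omit [Finite N] in
theorem ce3StarChar_one (χ : N →* (PadicAlgCl p)ˣ) : ce3StarChar (1 : ce3D p) χ = χ := by
  ext f
  simp [ce3StarChar_apply]

omit [Finite N] [MulDistribMulAction (ce3D p) N] in
theorem ce3CharFun_inv_mul (χ : N →* (PadicAlgCl p)ˣ) : ce3CharFun χ⁻¹ * ce3CharFun χ = 1 := by
  have h : χ⁻¹ * χ = 1 := inv_mul_cancel χ
  rw [← ce3CharFun_mul, h, ce3CharFun_one]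

namespace Ce3Model
variable (M : Ce3Model p N)

/-- characters congruent to `1` modulo the maximal ideal -/
def X0 : Subgroup (N →* (PadicAlgCl p)ˣ) where
  carrier := {χ | M.IsSmall (ce3CharFun χ - 1)}
  one_mem' := by
    show M.IsSmall (ce3CharFun 1 - 1)
    rw [ce3CharFun_one, sub_self]
    exact M.isSmall_zero
  mul_mem' := by
    intro χ ψ hχ hψ
    show M.IsSmall (ce3CharFun (χ * ψ) - 1)
    have h : ce3CharFun (χ * ψ) - 1 = (ce3CharFun χ - 1) * ce3CharFun ψ + (ce3CharFun ψ - 1) := by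
      rw [ce3CharFun_mul]; ring
    rw [h]
    exact (IsSmall.mul_isInt M hχ (M.isInt_charFun ψ)).add M hψ
  inv_mem' := by
    intro χ hχ
    show M.IsSmall (ce3CharFun χ⁻¹ - 1)
    have h : ce3CharFun χ⁻¹ - 1 = -((ce3CharFun χ - 1) * ce3CharFun χ⁻¹) := by
      have := ce3CharFun_inv_mul χ
      rw [sub_mul, one_mul, mul_comm, this]; ring
    rw [h]
    exact (IsSmall.mul_isInt M hχ (M.isInt_charFun χ⁻¹)).neg M

theorem mem_X0_iff (χ : N →* (PadicAlgCl p)ˣ) : χ ∈ M.X0 ↔ M.IsSmall (ce3CharFun χ - 1) := Iff.rfl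

theorem starChar_mem_X0 {χ : N →* (PadicAlgCl p)ˣ} (h : χ ∈ M.X0) (τ : ce3D p) :
    ce3StarChar τ χ ∈ M.X0 := by
  rw [mem_X0_iff, ce3CharFun_starChar]
  have h1 : ce3Star τ (ce3CharFun χ) - 1 = ce3Star τ (ce3CharFun χ - 1) := by
    rw [ce3Star_sub, ce3Star_one]
  rw [h1]
  exact IsSmall.star M h τ

/-- the multiplicative part of `N` -/
def Nm : Subgroup N where
  carrier := {f | ∀ χ ∈ M.X0, χ f = 1}
  one_mem' := fun χ _ => map_one χ
  mul_mem' := by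
    intro f g hf hg χ hχ
    rw [map_mul, hf χ hχ, hg χ hχ, one_mul]
  inv_mem' := by
    intro f hf χ hχ
    rw [map_inv, hf χ hχ, inv_one]

theorem mem_Nm_iff (f : N) : f ∈ M.Nm ↔ ∀ χ ∈ M.X0, χ f = 1 := Iff.rfl

/-- `M.Nm` is stable under the Galois group -/
theorem smul_mem_Nm {f : N} (hf : f ∈ M.Nm) (τ : ce3D p) : τ • f ∈ M.Nm := by
  intro χ hχ
  have h1 := hf _ (M.starChar_mem_X0 hχ τ⁻¹)
  have h2 : ((ce3StarChar τ⁻¹ χ f : (PadicAlgCl p)ˣ) : PadicAlgCl p) = 1 := by rw [h1]; rfl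
  rw [ce3StarChar_apply, inv_inv] at h2
  have h3 : τ (τ⁻¹ ((χ (τ • f) : (PadicAlgCl p)ˣ) : PadicAlgCl p)) = τ 1 := by rw [h2]
  rw [map_one] at h3
  have h4 : τ (τ⁻¹ ((χ (τ • f) : (PadicAlgCl p)ˣ) : PadicAlgCl p)) = (χ (τ • f) : (PadicAlgCl p)ˣ) :=
    AlgEquiv.apply_symm_apply τ _
  rw [h4] at h3
  exact Units.ext h3


omit [MulDistribMulAction (ce3D p) N] in
theorem ce3_neZero_exponent : NeZero ((Monoid.exponent N : ℕ) : PadicAlgCl p) := by
  have h : Monoid.exponent N ≠ 0 := Monoid.exponent_ne_zero_of_finite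
  exact ⟨by exact_mod_cast h⟩

omit [Finite N] [MulDistribMulAction (ce3D p) N] in
theorem ce3_char_pow_eq_one (hkill : ∀ f : N, f ^ p = 1) (χ : N →* (PadicAlgCl p)ˣ) (f : N) :
    ((χ f : (PadicAlgCl p)ˣ) : PadicAlgCl p) ^ p = 1 := by
  rw [← Units.val_pow_eq_pow_val, ← map_pow, hkill, map_one, Units.val_one]

/-- (m1) inertia acts on the multiplicative part through the cyclotomic character -/
theorem smul_eq_pow_of_mem_Nm (hkill : ∀ f : N, f ^ p = 1) {f : N} (hf : f ∈ M.Nm) {σ : ce3D p}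
    (hσ : σ ∈ ce3Inertia p) {a : ℕ} (ha : ∀ ζ : PadicAlgCl p, ζ ^ p = 1 → σ ζ = ζ ^ a) :
    σ • f = f ^ a := by
  have : NeZero ((Monoid.exponent N : ℕ) : PadicAlgCl p) := ce3_neZero_exponent
  rw [← CommGroup.forall_apply_eq_apply_iff N (M := PadicAlgCl p)]
  intro χ
  have h1 : ce3StarChar σ⁻¹ χ * χ⁻¹ ∈ M.X0 := by
    rw [mem_X0_iff, ce3CharFun_mul, ce3CharFun_starChar]
    have h : ce3Star σ⁻¹ (ce3CharFun χ) * ce3CharFun χ⁻¹ - 1 =
        (ce3Star σ⁻¹ (ce3CharFun χ) - ce3CharFun χ) * ce3CharFun χ⁻¹ := by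
      rw [sub_mul, mul_comm (ce3CharFun χ), ce3CharFun_inv_mul]
    rw [h]
    exact IsSmall.mul_isInt M (M.isSmall_star_sub (M.isInt_charFun χ) (inv_mem hσ))
      (M.isInt_charFun _)
  have h2 := hf _ h1
  rw [MonoidHom.mul_apply, MonoidHom.inv_apply, mul_inv_eq_one] at h2
  apply Units.ext
  have h3 : ((ce3StarChar σ⁻¹ χ f : (PadicAlgCl p)ˣ) : PadicAlgCl p) = (χ f : (PadicAlgCl p)ˣ) := by
    rw [h2]
  rw [ce3StarChar_apply, inv_inv] at h3
  have h4 : ((χ (σ • f) : (PadicAlgCl p)ˣ) : PadicAlgCl p) = σ ((χ f : (PadicAlgCl p)ˣ) : PadicAlgCl p) := by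
    rw [← h3]
    exact (AlgEquiv.apply_symm_apply σ _).symm
  rw [h4, ha _ (ce3_char_pow_eq_one hkill χ f), map_pow, Units.val_pow_eq_pow_val]

/-- the double annihilator: a character trivial on `M.Nm` lies in `M.X0` -/
theorem mem_X0_of_forall_Nm {χ : N →* (PadicAlgCl p)ˣ} (hNm : ∀ f ∈ M.Nm, χ f = 1) : χ ∈ M.X0 := by
  have : NeZero ((Monoid.exponent N : ℕ) : PadicAlgCl p) := ce3_neZero_exponent
  have h1 : (CommGroup.subgroupOrderIsoSubgroupMonoidHom N (PadicAlgCl p)).symm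
      (OrderDual.toDual M.X0) = M.Nm := by
    ext f
    rw [CommGroup.mem_subgroupOrderIsoSubgroupMonoidHom_symm_iff]
    rfl
  have h2 : CommGroup.subgroupOrderIsoSubgroupMonoidHom N (PadicAlgCl p) M.Nm =
      OrderDual.toDual M.X0 := by
    rw [← h1, OrderIso.apply_symm_apply]
  have h3 := (CommGroup.mem_subgroupOrderIsoSubgroupMonoidHom_iff (PadicAlgCl p) M.Nm χ).mpr hNm
  rw [h2] at h3
  exact h3

/-- (m2) an inertia-invariant character which is trivial on the multiplicative part is trivial -/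
theorem eq_one_of_star_eq (hp2 : p ≠ 2) (hunr : Ce3Unr p) (hkill : ∀ f : N, f ^ p = 1)
    {χ : N →* (PadicAlgCl p)ˣ} (hI : ∀ σ ∈ ce3Inertia p, ce3StarChar σ χ = χ)
    (hNm : ∀ f ∈ M.Nm, χ f = 1) : χ = 1 := by
  have hX0 : χ ∈ M.X0 := M.mem_X0_of_forall_Nm hNm
  have hsmall : ∀ i, ‖M.basis.repr (ce3CharFun χ - 1) i‖ ≤ (p : ℝ)⁻¹ := by
    intro i
    apply hunr
    · intro σ hσ
      rw [← M.repr_star, ce3Star_sub, ce3Star_one, ← ce3CharFun_starChar, hI σ hσ]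
    · exact hX0 i
  ext f
  have h1 := M.norm_apply_le (by positivity) hsmall f
  have h2 : (ce3CharFun χ - 1) f = ((χ f : (PadicAlgCl p)ˣ) : PadicAlgCl p) - 1 := rfl
  rw [h2] at h1
  have h3 := ce3_eq_one_of_pow_eq_one p hp2 (ce3_char_pow_eq_one hkill χ f) h1
  rw [h3]
  rfl

/-- (CE) if inertia acts on `N / N2` through the cyclotomic character, then `N = N2 * M.Nm` -/
theorem sup_Nm_eq_top (hp2 : p ≠ 2) (hunr : Ce3Unr p) (hkill : ∀ f : N, f ^ p = 1)
    (N2 : Subgroup N)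
    (hN2 : ∀ σ ∈ ce3Inertia p, ∀ a : ℕ, (∀ ζ : PadicAlgCl p, ζ ^ p = 1 → σ ζ = ζ ^ a) →
      ∀ f : N, (σ • f) * (f ^ a)⁻¹ ∈ N2) :
    N2 ⊔ M.Nm = ⊤ := by
  have : NeZero ((Monoid.exponent N : ℕ) : PadicAlgCl p) := ce3_neZero_exponent
  rw [eq_top_iff]
  intro x _
  rw [← CommGroup.forall_monoidHom_apply_eq_one_iff (PadicAlgCl p)]
  intro χ hχ
  have hχ1 : χ = 1 := by
    apply M.eq_one_of_star_eq hp2 hunr hkill
    · intro σ hσ
      ext f
      rw [ce3StarChar_apply]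
      obtain ⟨a, ha⟩ := ce3_exists_pow p σ⁻¹
      have h1 := hN2 σ⁻¹ (inv_mem hσ) a ha f
      have h2 : χ ((σ⁻¹ • f) * (f ^ a)⁻¹) = 1 := hχ _ (Subgroup.mem_sup_left h1)
      rw [map_mul, map_inv, mul_inv_eq_one] at h2
      rw [h2, map_pow, Units.val_pow_eq_pow_val, ← ha _ (ce3_char_pow_eq_one hkill χ f)]
      exact AlgEquiv.apply_symm_apply σ _
    · intro f hf
      exact hχ f (Subgroup.mem_sup_right hf)
  rw [hχ1]
  rfl

/-- (CE), elementwise: every element of `N` is congruent modulo `N2` to an element on which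
inertia acts through the cyclotomic character. -/
theorem exists_mem_Nm (hp2 : p ≠ 2) (hunr : Ce3Unr p) (hkill : ∀ f : N, f ^ p = 1)
    (N2 : Subgroup N)
    (hN2 : ∀ σ ∈ ce3Inertia p, ∀ a : ℕ, (∀ ζ : PadicAlgCl p, ζ ^ p = 1 → σ ζ = ζ ^ a) →
      ∀ f : N, (σ • f) * (f ^ a)⁻¹ ∈ N2) (f : N) :
    ∃ m ∈ M.Nm, f * m⁻¹ ∈ N2 := by
  have h : f ∈ N2 ⊔ M.Nm := by
    rw [M.sup_Nm_eq_top hp2 hunr hkill N2 hN2]
    exact Subgroup.mem_top f
  obtain ⟨y, hy, m, hm, rfl⟩ := Subgroup.mem_sup.mp h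
  exact ⟨m, hm, by rwa [mul_inv_cancel_right]⟩

end Ce3Model
end Fermat.Agent.S56
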