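/-
S56 / CE3: a finite flat model from an evaluation map.

`Ce3Model.ofEval` : if `ev : H →+* (N → Ω)` is a ring homomorphism from a commutative ring whose
image is contained in the `ℤ_p`-span of finitely many `ev h`, which is `D`-equivariant, separates
the points of `N` and is compatible with a comultiplication, then the `ℤ_p`-span of its image is a
finite flat model of `N`.
-/
import Fermat.Agent.S56.Ce.Mult
set_option autoImplicit false
namespace Fermat.Agent.S56
variable {p : ℕ} [Fact p.Prime]
variable {N : Type} [CommGroup N] [Finite N] [MulDistribMulAction (ce3D p) N]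
variable {H : Type} [CommRing H]

omit [CommGroup N] [Finite N] [MulDistribMulAction (ce3D p) N] in
theorem ce3_adjoin_range_toSubmodule (ev : H →+* (N → PadicAlgCl p)) :
    Subalgebra.toSubmodule (Algebra.adjoin ℤ_[p] (Set.range ev)) =
      Submodule.span ℤ_[p] (Set.range ev) := by
  rw [Algebra.adjoin_eq_span]
  have h : (Submonoid.closure (Set.range ev) : Set (N → PadicAlgCl p)) = Set.range ev := by
    have h1 : Set.range ev = ((MonoidHom.mrange (ev : H →* (N → PadicAlgCl p)) :
        Submonoid (N → PadicAlgCl p)) : Set (N → PadicAlgCl p)) := by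
      ext x
      simp
    rw [h1, Submonoid.closure_eq]
  rw [h]

theorem ce3_algEquiv_algebraMap_int (τ : ce3D p) (c : ℤ_[p]) :
    τ (algebraMap ℤ_[p] (PadicAlgCl p) c) = algebraMap ℤ_[p] (PadicAlgCl p) c := by
  have h : algebraMap ℤ_[p] (PadicAlgCl p) c = algebraMap ℚ_[p] (PadicAlgCl p) (c : ℚ_[p]) := rfl
  rw [h, τ.commutes]

/-- a finite flat model from an evaluation map -/
noncomputable def Ce3Model.ofEval (ev : H →+* (N → PadicAlgCl p))
    (S : Finset H) (hS : ∀ h, ev h ∈ Submodule.span ℤ_[p] (ev '' (S : Set H)))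
    (hequiv : ∀ h (τ : ce3D p) (n : N), ev h (τ • n) = τ (ev h n))
    (hsep : ∀ n m : N, (∀ h, ev h n = ev h m) → n = m)
    (hcomul : ∀ h, ∃ s : Finset (H × H), ∀ n m : N,
      ev h (n * m) = ∑ t ∈ s, ev t.1 n * ev t.2 m) : Ce3Model p N where
  A := Algebra.adjoin ℤ_[p] (Set.range ev)
  fg := by
    rw [ce3_adjoin_range_toSubmodule]
    have h : Submodule.span ℤ_[p] (Set.range ev) = Submodule.span ℤ_[p] (ev '' (S : Set H)) := by
      apply le_antisymm
      · rw [Submodule.span_le]
        rintro _ ⟨h, rfl⟩
        exact hS h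
      · exact Submodule.span_mono (Set.image_subset_range _ _)
    rw [h]
    exact Submodule.fg_span ((S.finite_toSet).image _)
  equivariant := by
    intro φ hφ τ n
    have hφ' : φ ∈ Submodule.span ℤ_[p] (Set.range ev) := by
      rw [← ce3_adjoin_range_toSubmodule]; exact hφ
    clear hφ
    induction hφ' using Submodule.span_induction with
    | mem φ hφ => obtain ⟨h, rfl⟩ := hφ; exact hequiv h τ n
    | zero => simp
    | add φ ψ _ _ h1 h2 => simp only [Pi.add_apply, map_add, h1, h2]
    | smul c φ _ h1 =>
      simp only [Pi.smul_apply, Algebra.smul_def, map_mul, h1, ce3_algEquiv_algebraMap_int]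
  separates := by
    intro n m h
    exact hsep n m fun x => h _ (Algebra.subset_adjoin (Set.mem_range_self x))
  comul := by
    intro φ hφ
    have hφ' : φ ∈ Submodule.span ℤ_[p] (Set.range ev) := by
      rw [← ce3_adjoin_range_toSubmodule]; exact hφ
    clear hφ
    induction hφ' using Submodule.span_induction with
    | mem φ hφ =>
      obtain ⟨h, rfl⟩ := hφ
      obtain ⟨s, hs⟩ := hcomul h
      have h1 : (fun x : N × N => ev h (x.1 * x.2)) =
          ∑ t ∈ s, fun x : N × N => ev t.1 x.1 * ev t.2 x.2 := by
        funext x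
        rw [hs, Finset.sum_apply]
      rw [h1]
      refine Submodule.sum_mem _ fun t _ => Submodule.subset_span ?_
      exact ⟨ev t.1, Algebra.subset_adjoin (Set.mem_range_self _), ev t.2,
        Algebra.subset_adjoin (Set.mem_range_self _), rfl⟩
    | zero =>
      have h1 : (fun x : N × N => (0 : N → PadicAlgCl p) (x.1 * x.2)) = 0 := rfl
      rw [h1]
      exact Submodule.zero_mem _
    | add φ ψ _ _ h1 h2 =>
      have h3 : (fun x : N × N => (φ + ψ) (x.1 * x.2)) =
          (fun x : N × N => φ (x.1 * x.2)) + fun x : N × N => ψ (x.1 * x.2) := rfl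
      rw [h3]
      exact Submodule.add_mem _ h1 h2
    | smul c φ _ h1 =>
      have h3 : (fun x : N × N => (c • φ) (x.1 * x.2)) =
          c • (fun x : N × N => φ (x.1 * x.2)) := rfl
      rw [h3]
      exact Submodule.smul_mem _ _ h1

end Fermat.Agent.S56
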