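/-
S56 / CE3: the connected-etale input in HOPF form.

`Λ` a commutative ring mapping to `ℤ_p ⊆ Ω = PadicAlgCl p` (`Ce3IntBase p Λ`), `H` a commutative
cocommutative bialgebra over `Λ`, finite as a module, `𝒫 = WithConv (H →ₐ[Λ] Ω)` its monoid of
points (Mathlib convolution `CommMonoid`; no antipode is used: the submonoids below are killed by
`p`, hence groups) with the action `ce3PtAct` of `D = Gal(Ω/ℚ_p)` by post-composition.

`ce3_main` : `W₃ ≤ 𝒫` a `D`-stable submonoid killed by `p`, `W₂` a submonoid such that inertia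
acts on `W₃` modulo `W₂` through the cyclotomic character.  Then there is a `D`-stable submonoid
`Wm ≤ W₃` on which inertia acts through the cyclotomic character EXACTLY, with `W₃ ≤ Wm W₂`.
-/
import Fermat.Agent.S56.Ce.Eval
set_option autoImplicit false
namespace Fermat.Agent.S56
open WithConv

/-- the base ring maps into `ℤ_p` -/
def Ce3IntBase (p : ℕ) [Fact p.Prime] (Λ : Type) [CommRing Λ] [Algebra Λ (PadicAlgCl p)] : Prop :=
  ∀ c : Λ, ∃ z : ℤ_[p], algebraMap Λ (PadicAlgCl p) c = algebraMap ℤ_[p] (PadicAlgCl p) z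

variable {p : ℕ} [Fact p.Prime]
variable {Λ : Type} [CommRing Λ] [Algebra Λ (PadicAlgCl p)]

/-- a Galois automorphism as a `Λ`-algebra homomorphism -/
noncomputable def ce3AlgAut (hΛ : Ce3IntBase p Λ) (τ : ce3D p) : PadicAlgCl p →ₐ[Λ] PadicAlgCl p :=
  { (τ : PadicAlgCl p →+* PadicAlgCl p) with
    commutes' := fun c => by
      obtain ⟨z, hz⟩ := hΛ c
      rw [hz]
      exact ce3_algEquiv_algebraMap_int τ z }

theorem ce3AlgAut_apply (hΛ : Ce3IntBase p Λ) (τ : ce3D p) (y : PadicAlgCl p) :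
    ce3AlgAut hΛ τ y = τ y := rfl

/-- `Ce3IntBase` from: every scalar is the image of a `p`-adic number of norm `≤ 1` -/
theorem ce3IntBase_of_forall
    (h : ∀ c : Λ, ∃ y : ℚ_[p], ‖y‖ ≤ 1 ∧
      algebraMap Λ (PadicAlgCl p) c = algebraMap ℚ_[p] (PadicAlgCl p) y) : Ce3IntBase p Λ := by
  intro c
  obtain ⟨y, hy, hc⟩ := h c
  exact ⟨⟨y, hy⟩, hc⟩

section Points
variable {H : Type} [CommRing H] [Bialgebra Λ H] [Coalgebra.IsCocomm Λ H]

/-- the Galois action on points -/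
noncomputable def ce3PtAct (hΛ : Ce3IntBase p Λ) (τ : ce3D p)
    (x : WithConv (H →ₐ[Λ] PadicAlgCl p)) : WithConv (H →ₐ[Λ] PadicAlgCl p) :=
  toConv ((ce3AlgAut hΛ τ).comp x.ofConv)

omit [Coalgebra.IsCocomm Λ H] in
theorem ce3PtAct_apply (hΛ : Ce3IntBase p Λ) (τ : ce3D p)
    (x : WithConv (H →ₐ[Λ] PadicAlgCl p)) (h : H) : ce3PtAct hΛ τ x h = τ (x h) := rfl

omit [Coalgebra.IsCocomm Λ H] in
theorem ce3_pt_ext {x y : WithConv (H →ₐ[Λ] PadicAlgCl p)} (h : ∀ c : H, x c = y c) : x = y := by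
  apply WithConv.ext
  exact AlgHom.ext h

omit [Coalgebra.IsCocomm Λ H] in
theorem ce3PtAct_one_smul (hΛ : Ce3IntBase p Λ) (x : WithConv (H →ₐ[Λ] PadicAlgCl p)) :
    ce3PtAct hΛ 1 x = x := ce3_pt_ext fun _ => rfl

omit [Coalgebra.IsCocomm Λ H] in
theorem ce3PtAct_mul_smul (hΛ : Ce3IntBase p Λ) (σ τ : ce3D p)
    (x : WithConv (H →ₐ[Λ] PadicAlgCl p)) :
    ce3PtAct hΛ (σ * τ) x = ce3PtAct hΛ σ (ce3PtAct hΛ τ x) := ce3_pt_ext fun _ => rfl

omit [Coalgebra.IsCocomm Λ H] in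
theorem ce3PtAct_mul (hΛ : Ce3IntBase p Λ) (τ : ce3D p)
    (x y : WithConv (H →ₐ[Λ] PadicAlgCl p)) :
    ce3PtAct hΛ τ (x * y) = ce3PtAct hΛ τ x * ce3PtAct hΛ τ y := by
  apply WithConv.ext
  exact AlgHom.comp_convMul_distrib (ce3AlgAut hΛ τ) x y

omit [Coalgebra.IsCocomm Λ H] in
theorem ce3PtAct_one (hΛ : Ce3IntBase p Λ) (τ : ce3D p) :
    ce3PtAct hΛ τ (1 : WithConv (H →ₐ[Λ] PadicAlgCl p)) = 1 := by
  apply ce3_pt_ext
  intro c
  rw [ce3PtAct_apply, AlgHom.convOne_apply]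
  exact (ce3AlgAut hΛ τ).commutes _

omit [Coalgebra.IsCocomm Λ H] in
/-- the convolution product, evaluated -/
theorem ce3_exists_comul (h : H) : ∃ s : Finset (H × H),
    ∀ x y : WithConv (H →ₐ[Λ] PadicAlgCl p), (x * y) h = ∑ t ∈ s, x t.1 * y t.2 := by
  obtain ⟨s, hs⟩ := TensorProduct.exists_finset (Coalgebra.comul (R := Λ) h)
  refine ⟨s, fun x y => ?_⟩
  rw [AlgHom.convMul_apply, hs, map_sum]
  refine Finset.sum_congr rfl fun t _ => ?_
  rw [Algebra.TensorProduct.lift_tmul]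

omit [Bialgebra Λ H] [Coalgebra.IsCocomm Λ H] in
/-- a finite algebra has finitely many points -/
theorem ce3_finite_points [Algebra Λ H] [Module.Finite Λ H] : Finite (H →ₐ[Λ] PadicAlgCl p) := by
  classical
  obtain ⟨S, hS⟩ := (Module.Finite.fg_top : (⊤ : Submodule Λ H).FG)
  have hint : ∀ s : H, ∃ P : Polynomial Λ, P.Monic ∧ Polynomial.aeval s P = 0 := fun s =>
    Algebra.IsIntegral.isIntegral (R := Λ) s
  choose P hPm hP using hint
  let F : (H →ₐ[Λ] PadicAlgCl p) → (∀ s : S, (P s).rootSet (PadicAlgCl p)) := fun x s =>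
    ⟨x s, by
      rw [Polynomial.mem_rootSet']
      refine ⟨((hPm s).map _).ne_zero, ?_⟩
      rw [Polynomial.aeval_algHom_apply, hP, map_zero]⟩
  have hF : Function.Injective F := by
    intro x y hxy
    apply AlgHom.toLinearMap_injective
    apply LinearMap.ext_on hS
    intro s hs
    have := congrFun hxy ⟨s, hs⟩
    exact congrArg Subtype.val this
  exact Finite.of_injective F hF



/-- (CE) in Hopf form -/
theorem ce3_main (hp2 : p ≠ 2) (hunr : Ce3Unr p) (hΛ : Ce3IntBase p Λ) [Module.Finite Λ H]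
    (W₃ W₂ : Submonoid (WithConv (H →ₐ[Λ] PadicAlgCl p)))
    (hkill : ∀ x ∈ W₃, x ^ p = 1)
    (hW₃ : ∀ (τ : ce3D p), ∀ x ∈ W₃, ce3PtAct hΛ τ x ∈ W₃)
    (hω : ∀ σ ∈ ce3Inertia p, ∀ a : ℕ, (∀ ζ : PadicAlgCl p, ζ ^ p = 1 → σ ζ = ζ ^ a) →
      ∀ x ∈ W₃, ∃ w ∈ W₂, ce3PtAct hΛ σ x = x ^ a * w) :
    ∃ Wm : Submonoid (WithConv (H →ₐ[Λ] PadicAlgCl p)), Wm ≤ W₃ ∧
      (∀ (τ : ce3D p), ∀ x ∈ Wm, ce3PtAct hΛ τ x ∈ Wm) ∧
      (∀ σ ∈ ce3Inertia p, ∀ a : ℕ, (∀ ζ : PadicAlgCl p, ζ ^ p = 1 → σ ζ = ζ ^ a) →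
        ∀ x ∈ Wm, ce3PtAct hΛ σ x = x ^ a) ∧
      ∀ x ∈ W₃, ∃ m ∈ Wm, ∃ w ∈ W₂, x = m * w := by
  classical
  have hp : p.Prime := Fact.out
  have hp1 : p - 1 + 1 = p := Nat.sub_add_cancel hp.one_le
  -- `W₃` is a group
  let grp : CommGroup W₃ :=
    { (inferInstance : CommMonoid W₃) with
      inv := fun x => x ^ (p - 1)
      inv_mul_cancel := fun x => by
        show x ^ (p - 1) * x = 1
        rw [← pow_succ, hp1]
        exact Subtype.ext (hkill x.1 x.2) }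
  have hinv : ∀ x : W₃, x⁻¹ = x ^ (p - 1) := fun _ => rfl
  -- the `D`-group `W₃`
  let act : MulDistribMulAction (ce3D p) W₃ :=
    { smul := fun τ x => ⟨ce3PtAct hΛ τ x.1, hW₃ τ x.1 x.2⟩
      one_smul := fun x => Subtype.ext (ce3PtAct_one_smul hΛ x.1)
      mul_smul := fun σ τ x => Subtype.ext (ce3PtAct_mul_smul hΛ σ τ x.1)
      smul_mul := fun τ x y => Subtype.ext (ce3PtAct_mul hΛ τ x.1 y.1)
      smul_one := fun τ => Subtype.ext (ce3PtAct_one hΛ τ) }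
  have hact : ∀ (τ : ce3D p) (x : W₃), ((τ • x : W₃) : WithConv (H →ₐ[Λ] PadicAlgCl p)) =
      ce3PtAct hΛ τ x.1 := fun _ _ => rfl
  have : Finite (H →ₐ[Λ] PadicAlgCl p) := ce3_finite_points
  have : Finite (WithConv (H →ₐ[Λ] PadicAlgCl p)) := Finite.of_equiv _ (WithConv.equiv _).symm
  have : Finite W₃ := inferInstance
  -- the evaluation map
  let ev : H →+* (W₃ → PadicAlgCl p) :=
    { toFun := fun h n => n.1 h
      map_one' := funext fun n => map_one n.1.ofConv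
      map_mul' := fun a b => funext fun n => map_mul n.1.ofConv a b
      map_zero' := funext fun n => map_zero n.1.ofConv
      map_add' := fun a b => funext fun n => map_add n.1.ofConv a b }
  have hev : ∀ h (n : W₃), ev h n = n.1 h := fun _ _ => rfl
  obtain ⟨S, hS⟩ := (Module.Finite.fg_top : (⊤ : Submodule Λ H).FG)
  have hS' : ∀ h, ev h ∈ Submodule.span ℤ_[p] (ev '' (S : Set H)) := by
    intro h
    have hh : h ∈ Submodule.span Λ (S : Set H) := by rw [hS]; exact Submodule.mem_top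
    induction hh using Submodule.span_induction with
    | mem h hh => exact Submodule.subset_span ⟨h, hh, rfl⟩
    | zero => rw [map_zero]; exact Submodule.zero_mem _
    | add a b _ _ h1 h2 => rw [map_add]; exact Submodule.add_mem _ h1 h2
    | smul c h _ h1 =>
      obtain ⟨z, hz⟩ := hΛ c
      have h2 : ev (c • h) = z • ev h := by
        funext n
        rw [hev, Pi.smul_apply, hev, Algebra.smul_def z, ← hz, ← Algebra.smul_def]
        exact map_smul n.1.ofConv c h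
      rw [h2]
      exact Submodule.smul_mem _ _ h1
  let M : Ce3Model p W₃ := Ce3Model.ofEval ev S hS'
    (fun h τ n => rfl)
    (fun n m hnm => Subtype.ext (ce3_pt_ext fun c => hnm c))
    (fun h => by
      obtain ⟨s, hs⟩ := ce3_exists_comul (Λ := Λ) (p := p) h
      exact ⟨s, fun n m => hs n.1 m.1⟩)
  have hkill' : ∀ f : W₃, f ^ p = 1 := fun f => Subtype.ext (hkill f.1 f.2)
  -- the subgroup `W₂ ∩ W₃` of `W₃`
  let N2 : Subgroup W₃ :=
    { carrier := {f | f.1 ∈ W₂}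
      one_mem' := W₂.one_mem
      mul_mem' := fun ha hb => W₂.mul_mem ha hb
      inv_mem' := fun {x} hx => by
        show (x⁻¹ : W₃).1 ∈ W₂
        rw [hinv]
        exact W₂.pow_mem hx _ }
  have hN2 : ∀ σ ∈ ce3Inertia p, ∀ a : ℕ, (∀ ζ : PadicAlgCl p, ζ ^ p = 1 → σ ζ = ζ ^ a) →
      ∀ f : W₃, (σ • f) * (f ^ a)⁻¹ ∈ N2 := by
    intro σ hσ a ha f
    obtain ⟨w, hw, hfw⟩ := hω σ hσ a ha f.1 f.2
    have hw3 : w ∈ W₃ := by
      have h1 : w = ce3PtAct hΛ σ f.1 * (f.1 ^ a) ^ (p - 1) := by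
        rw [hfw, mul_comm (f.1 ^ a) w, mul_assoc, ← pow_succ', hp1, ← pow_mul, mul_comm a p,
          pow_mul, hkill f.1 f.2, one_pow, mul_one]
      rw [h1]
      exact W₃.mul_mem (hW₃ σ f.1 f.2) (W₃.pow_mem (W₃.pow_mem f.2 _) _)
    have h2 : σ • f = f ^ a * ⟨w, hw3⟩ := Subtype.ext hfw
    rw [h2, mul_comm, ← mul_assoc, inv_mul_cancel, one_mul]
    exact hw
  refine ⟨M.Nm.toSubmonoid.map W₃.subtype, ?_, ?_, ?_, ?_⟩
  · rintro _ ⟨x, _, rfl⟩
    exact x.2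
  · rintro τ _ ⟨x, hx, rfl⟩
    exact ⟨τ • x, M.smul_mem_Nm hx τ, rfl⟩
  · rintro σ hσ a ha _ ⟨x, hx, rfl⟩
    have h1 := M.smul_eq_pow_of_mem_Nm hkill' hx hσ ha
    have h2 := congrArg Subtype.val h1
    rw [hact] at h2
    exact h2
  · intro x hx
    obtain ⟨m, hm, hxm⟩ := M.exists_mem_Nm hp2 hunr hkill' N2 hN2 ⟨x, hx⟩
    refine ⟨m.1, ⟨m, hm, rfl⟩, ((⟨x, hx⟩ : W₃) * m⁻¹).1, hxm, ?_⟩
    have h3 : (⟨x, hx⟩ : W₃) = m * ((⟨x, hx⟩ : W₃) * m⁻¹) := by
      rw [mul_comm m, inv_mul_cancel_right]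
    exact congrArg Subtype.val h3

end Points
end Fermat.Agent.S56
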