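/-
S56 / CE3: the base ring `Λ = GaloisRep.ratLocalizedAt p` of the Prelude's `IsFlatAt` maps into `ℤ_p`
(for the `Algebra Λ (PadicAlgCl p)` instance found by instance search, `AlgebraicClosure.instAlgebra`).
-/
import Fermat.Agent.S56.Ce.Hopf
import Fermat.Prelude.Def_GaloisRep_Flat
set_option autoImplicit false
namespace Fermat.Agent.S56
variable {p : ℕ} [Fact p.Prime]

theorem ce3_norm_ratLocalizedAt (c : GaloisRep.ratLocalizedAt p) :
    ‖((c : ℚ) : ℚ_[p])‖ ≤ 1 := by
  have hc : (c : ℚ).den.Coprime p := c.2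
  have hp : p.Prime := Fact.out
  apply Padic.norm_rat_le_one
  intro hdvd
  have := Nat.Coprime.eq_one_of_dvd hc.symm hdvd
  exact hp.one_lt.ne' this

theorem ce3IntBase_ratLocalizedAt : Ce3IntBase p (GaloisRep.ratLocalizedAt p) :=
  ce3IntBase_of_forall fun c => ⟨((c : ℚ) : ℚ_[p]), ce3_norm_ratLocalizedAt c, rfl⟩

end Fermat.Agent.S56
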