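/-
S56 / CE3: (F1) the fixed field of the inertia subgroup of `Gal(ℚ̄_p/ℚ_p)` is unramified:
`ce3_unr : Ce3Unr p`, i.e. an element of `Ω = PadicAlgCl p` fixed by `ce3Inertia p` with norm `< 1`
has norm `≤ 1/p`.

Route: `U := ℚ_p(μ_{p'})`.  (1) Teichmüller (S55 `lf_exists_root_of_unity_lift`): every integer of
`Ω` is congruent to `0` or a root of unity of order prime to `p`; so `Gal(Ω/U) ⊆ ce3Inertia p`.
(2) infinite Galois theory: the fixed field of `Gal(Ω/U)` is `U`.  (3) every element of `U` lies in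
`ℚ_p(ζ_m)`, `p ∤ m`, which is unramified (S55 `lfUnramified_of_adjoin_root`).
-/
import Fermat.Agent.S56.Ce.Mult
import Fermat.Agent.S55.LocalUnram
set_option autoImplicit false
namespace Fermat.Agent.S56
open Fermat.Agent.S55 IsLocalRing
variable (p : ℕ) [Fact p.Prime]

/-- the norm of `Ω` restricted to an intermediate field is its spectral norm -/
theorem ce3_norm_coe (E : IntermediateField ℚ_[p] (PadicAlgCl p)) (x : E) :
    ‖(x : PadicAlgCl p)‖ = spectralNorm ℚ_[p] E x := by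
  rw [← PadicAlgCl.spectralNorm_eq]
  exact (spectralNorm.eq_of_tower (K := ℚ_[p]) (L := PadicAlgCl p) (E := E) x).symm

/-- (1) Teichmüller representatives in `Ω` -/
theorem ce3_exists_teichmuller (y : PadicAlgCl p) (hy : ‖y‖ ≤ 1) :
    ∃ u : PadicAlgCl p, (u = 0 ∨ ∃ m : ℕ, ¬ p ∣ m ∧ u ^ m = 1) ∧ ‖y - u‖ < 1 := by
  have hyint : IsIntegral ℚ_[p] y := (Algebra.IsAlgebraic.isAlgebraic y).isIntegral
  let E : IntermediateField ℚ_[p] (PadicAlgCl p) := IntermediateField.adjoin ℚ_[p] {y}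
  have : FiniteDimensional ℚ_[p] E := IntermediateField.adjoin.finiteDimensional hyint
  let y' : E := ⟨y, IntermediateField.mem_adjoin_simple_self ℚ_[p] y⟩
  have hy' : y' ∈ lfInt p E := by
    rw [mem_lfInt_iff, ← ce3_norm_coe]
    exact hy
  let a : lfInt p E := ⟨y', hy'⟩
  by_cases ha : residue (lfInt p E) a = 0
  · refine ⟨0, Or.inl rfl, ?_⟩
    rw [residue_eq_zero_iff, mem_maximalIdeal_lfInt_iff, ← ce3_norm_coe] at ha
    rw [sub_zero]
    exact ha
  · obtain ⟨z, hz1, hz2⟩ := lf_exists_root_of_unity_lift p E (Units.mk0 _ ha)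
    refine ⟨((z : E) : PadicAlgCl p), Or.inr ⟨lfResCard p E - 1, lu_not_dvd_lfResCard_sub_one p E, ?_⟩, ?_⟩
    · have h1 : ((z : E) : PadicAlgCl p) ^ (lfResCard p E - 1) =
          (((z ^ (lfResCard p E - 1) : lfInt p E) : E) : PadicAlgCl p) := by
        push_cast
        rfl
      rw [h1, hz1]
      rfl
    · have h2 : residue (lfInt p E) a = residue (lfInt p E) z := by
        rw [hz2]; rfl
      rw [lu_residue_eq_iff, ← ce3_norm_coe] at h2
      exact h2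


/-- the set of roots of unity of order prime to `p` -/
def ce3RootsPrime : Set (PadicAlgCl p) := {u | ∃ m : ℕ, ¬ p ∣ m ∧ u ^ m = 1}

/-- the maximal unramified extension `ℚ_p(μ_{p'})` -/
noncomputable def ce3Unram : IntermediateField ℚ_[p] (PadicAlgCl p) :=
  IntermediateField.adjoin ℚ_[p] (ce3RootsPrime p)

/-- (1') an automorphism fixing the roots of unity of order prime to `p` lies in the inertia group -/
theorem ce3_mem_inertia_of_fixes (σ : ce3D p) (h : ∀ u ∈ ce3RootsPrime p, σ u = u) :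
    σ ∈ ce3Inertia p := by
  intro y hy
  obtain ⟨u, hu, hyu⟩ := ce3_exists_teichmuller p y hy
  have hσu : σ u = u := by
    rcases hu with rfl | hu
    · exact map_zero σ
    · exact h u hu
  have h1 : σ y - y = σ (y - u) - (y - u) := by
    rw [map_sub, hσu]; ring
  rw [h1, sub_eq_add_neg]
  refine lt_of_le_of_lt (PadicAlgCl.isNonarchimedean p _ _) (max_lt ?_ ?_)
  · rw [ce3_norm_algEquiv]; exact hyu
  · rw [norm_neg]; exact hyu

/-- (2) an element fixed by the inertia group lies in `ℚ_p(μ_{p'})` -/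
theorem ce3_mem_unram_of_fixed {a : PadicAlgCl p} (ha : ∀ σ ∈ ce3Inertia p, σ a = a) :
    a ∈ ce3Unram p := by
  have : IsAlgClosure (ce3Unram p) (PadicAlgCl p) :=
    ⟨inferInstance, Algebra.IsAlgebraic.tower_top (K := ℚ_[p]) (ce3Unram p)⟩
  have : IsGalois (ce3Unram p) (PadicAlgCl p) := inferInstance
  have h1 : a ∈ Set.range (algebraMap (ce3Unram p) (PadicAlgCl p)) := by
    rw [InfiniteGalois.mem_range_algebraMap_iff_fixed]
    intro τ
    have h2 : τ.restrictScalars ℚ_[p] ∈ ce3Inertia p := by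
      apply ce3_mem_inertia_of_fixes
      intro u hu
      have hu' : u ∈ ce3Unram p := IntermediateField.subset_adjoin _ _ hu
      exact τ.commutes ⟨u, hu'⟩
    exact ha _ h2
  obtain ⟨x, rfl⟩ := h1
  exact x.2

/-- (3) every element of `ℚ_p(μ_{p'})` lies in some `ℚ_p(ζ_m)` -/
theorem ce3_exists_root_of_mem_unram {a : PadicAlgCl p} (ha : a ∈ ce3Unram p) :
    ∃ (m : ℕ) (ζ : PadicAlgCl p), ¬ p ∣ m ∧ IsPrimitiveRoot ζ m ∧
      a ∈ IntermediateField.adjoin ℚ_[p] {ζ} := by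
  classical
  have hp : p.Prime := Fact.out
  obtain ⟨T, hT, haT⟩ := IntermediateField.exists_finset_of_mem_adjoin ha
  have hT' : ∀ t ∈ T, ∃ m : ℕ, ¬ p ∣ m ∧ t ^ m = 1 := fun t ht => hT ht
  choose! m hm hm1 using hT'
  set M : ℕ := ∏ t ∈ T, m t with hM
  have hpM : ¬ p ∣ M := by
    rw [hM, Prime.dvd_finsetProd_iff hp.prime]
    rintro ⟨t, ht, hpt⟩
    exact hm t ht hpt
  have hM0 : M ≠ 0 := fun h0 => hpM (h0 ▸ dvd_zero p)
  have : NeZero ((M : ℕ) : PadicAlgCl p) := ⟨Nat.cast_ne_zero.2 hM0⟩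
  have : NeZero M := ⟨hM0⟩
  obtain ⟨ζ, hζ⟩ := HasEnoughRootsOfUnity.exists_primitiveRoot (PadicAlgCl p) M
  refine ⟨M, ζ, hpM, hζ, ?_⟩
  have hle : IntermediateField.adjoin ℚ_[p] (T : Set (PadicAlgCl p)) ≤
      IntermediateField.adjoin ℚ_[p] {ζ} := by
    rw [IntermediateField.adjoin_le_iff]
    intro t ht
    have ht' : t ∈ T := ht
    have h1 : t ^ M = 1 := by
      obtain ⟨c, hc⟩ := Finset.dvd_prod_of_mem m ht'
      rw [hM, hc, pow_mul, hm1 t ht', one_pow]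
    obtain ⟨i, _, rfl⟩ := hζ.eq_pow_of_pow_eq_one h1
    exact pow_mem (IntermediateField.mem_adjoin_simple_self ℚ_[p] ζ) i
  exact hle haT


/-- `p` is a uniformizer of `ℚ_p` -/
theorem ce3_isLfUniformizer_prime : IsLfUniformizer p ℚ_[p] ((p : ℕ) : ℚ_[p]) := by
  unfold IsLfUniformizer
  have h1 := lfOrd_prime_mul_lfAbsInertiaDeg p ℚ_[p]
  rw [Module.finrank_self] at h1
  have h2 : (0 : ℤ) < (lfAbsInertiaDeg p ℚ_[p] : ℤ) := by exact_mod_cast lfAbsInertiaDeg_pos p ℚ_[p]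
  have h3 : (lfAbsInertiaDeg p ℚ_[p] : ℤ) = 1 := by
    rcases Int.isUnit_iff.mp (IsUnit.of_mul_eq_one _ (by rw [mul_comm]; exact_mod_cast h1)) with h | h
    · exact h
    · omega
  rw [h3, mul_one] at h1
  exact_mod_cast h1

/-- (4) `ℚ_p(ζ_m)`, `p ∤ m`, is unramified: elements of norm `< 1` have norm `≤ 1/p` -/
theorem ce3_norm_le_of_mem_adjoin_root {m : ℕ} {ζ : PadicAlgCl p} (hm : ¬ p ∣ m)
    (hζ : IsPrimitiveRoot ζ m) {a : PadicAlgCl p} (ha : a ∈ IntermediateField.adjoin ℚ_[p] {ζ})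
    (hnorm : ‖a‖ < 1) : ‖a‖ ≤ (p : ℝ)⁻¹ := by
  have hp : p.Prime := Fact.out
  have hm0 : m ≠ 0 := fun h0 => hm (h0 ▸ dvd_zero p)
  have hint : IsIntegral ℚ_[p] ζ := hζ.isIntegral (Nat.pos_of_ne_zero hm0) |>.tower_top
  let L : IntermediateField ℚ_[p] (PadicAlgCl p) := IntermediateField.adjoin ℚ_[p] {ζ}
  have : FiniteDimensional ℚ_[p] L := IntermediateField.adjoin.finiteDimensional hint
  have hmem : ζ ∈ L := IntermediateField.mem_adjoin_simple_self ℚ_[p] ζ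
  let ζ' : L := ⟨ζ, hmem⟩
  have hζ' : IsPrimitiveRoot ζ' m :=
    IsPrimitiveRoot.of_map_of_injective (f := L.val) (by exact hζ) L.val.injective
  have htop : Algebra.adjoin ℚ_[p] {ζ'} = ⊤ :=
    lu_adjoin_subtype_eq_top ℚ_[p] (PadicAlgCl p) L ζ hint rfl hmem
  have hunr : LfUnramified p ℚ_[p] L := lfUnramified_of_adjoin_root p ℚ_[p] L m hm ζ' hζ' htop
  have hπ : IsLfUniformizer p L (algebraMap ℚ_[p] L ((p : ℕ) : ℚ_[p])) :=
    LfUnramified.isLfUniformizer p ℚ_[p] L hunr (ce3_isLfUniformizer_prime p)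
  by_cases ha0 : a = 0
  · rw [ha0, norm_zero]; positivity
  let a' : L := ⟨a, ha⟩
  have ha'0 : a' ≠ 0 := fun h => ha0 (congrArg Subtype.val h)
  have hn : ‖a‖ = spectralNorm ℚ_[p] L a' := ce3_norm_coe p L a'
  rw [hn] at hnorm ⊢
  have hord : 1 ≤ lfOrd p L a' := by
    have := (spectralNorm_lt_one_iff_lfOrd p L ha'0).mp hnorm
    omega
  rw [spectralNorm_eq_zpow_lfOrd p L hπ ha'0, spectralNorm_extends, Padic.norm_p]
  have hp1 : (1 : ℝ) ≤ p := by exact_mod_cast hp.one_le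
  have hp0 : (0 : ℝ) < (p : ℝ)⁻¹ := by positivity
  calc ((p : ℝ)⁻¹) ^ (lfOrd p L a') ≤ ((p : ℝ)⁻¹) ^ (1 : ℤ) :=
        zpow_le_zpow_right_of_le_one₀ hp0 (inv_le_one_of_one_le₀ hp1) hord
    _ = (p : ℝ)⁻¹ := zpow_one _

/-- (F1) the fixed field of inertia is unramified -/
theorem ce3_unr : Ce3Unr p := by
  intro a ha hnorm
  obtain ⟨m, ζ, hm, hζ, haζ⟩ := ce3_exists_root_of_mem_unram p (ce3_mem_unram_of_fixed p ha)
  exact ce3_norm_le_of_mem_adjoin_root p hm hζ haζ hnorm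

end Fermat.Agent.S56
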