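/-
S56 / CE3: FINAL statements (no hypotheses left).

`ce3_flat_mult` : `Λ` mapping into `ℤ_p`, `H` a commutative cocommutative `Λ`-bialgebra, finite as a
module, `𝒫 = WithConv (H →ₐ[Λ] PadicAlgCl p)`; `W₃ ≤ 𝒫` a `D`-stable submonoid killed by `p` and
`W₂` a submonoid such that inertia acts on `W₃` modulo `W₂` through the cyclotomic character.  Then
there is a `D`-stable submonoid `Wm ≤ W₃` on which inertia acts through the cyclotomic character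
EXACTLY, and `W₃ ≤ Wm * W₂`.   (`p` odd.)

`ce3_flat_mult_prelude` : the same for `Λ = GaloisRep.ratLocalizedAt p` (the Prelude's `IsFlatAt`).
-/
import Fermat.Agent.S56.Ce.Rat
import Fermat.Agent.S56.Ce.Unr
set_option autoImplicit false
namespace Fermat.Agent.S56
open WithConv
variable {p : ℕ} [Fact p.Prime]

theorem ce3_flat_mult {Λ : Type} [CommRing Λ] [Algebra Λ (PadicAlgCl p)]
    {H : Type} [CommRing H] [Bialgebra Λ H] [Coalgebra.IsCocomm Λ H] [Module.Finite Λ H]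
    (hp2 : p ≠ 2) (hΛ : Ce3IntBase p Λ)
    (W₃ W₂ : Submonoid (WithConv (H →ₐ[Λ] PadicAlgCl p)))
    (hkill : ∀ x ∈ W₃, x ^ p = 1)
    (hW₃ : ∀ (τ : ce3D p), ∀ x ∈ W₃, ce3PtAct hΛ τ x ∈ W₃)
    (hω : ∀ σ ∈ ce3Inertia p, ∀ a : ℕ, (∀ ζ : PadicAlgCl p, ζ ^ p = 1 → σ ζ = ζ ^ a) →
      ∀ x ∈ W₃, ∃ w ∈ W₂, ce3PtAct hΛ σ x = x ^ a * w) :
    ∃ Wm : Submonoid (WithConv (H →ₐ[Λ] PadicAlgCl p)), Wm ≤ W₃ ∧
      (∀ (τ : ce3D p), ∀ x ∈ Wm, ce3PtAct hΛ τ x ∈ Wm) ∧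
      (∀ σ ∈ ce3Inertia p, ∀ a : ℕ, (∀ ζ : PadicAlgCl p, ζ ^ p = 1 → σ ζ = ζ ^ a) →
        ∀ x ∈ Wm, ce3PtAct hΛ σ x = x ^ a) ∧
      ∀ x ∈ W₃, ∃ m ∈ Wm, ∃ w ∈ W₂, x = m * w :=
  ce3_main hp2 (ce3_unr p) hΛ W₃ W₂ hkill hW₃ hω

theorem ce3_flat_mult_prelude
    {H : Type} [CommRing H] [Bialgebra (GaloisRep.ratLocalizedAt p) H]
    [Coalgebra.IsCocomm (GaloisRep.ratLocalizedAt p) H]
    [Module.Finite (GaloisRep.ratLocalizedAt p) H]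
    (hp2 : p ≠ 2)
    (W₃ W₂ : Submonoid (WithConv (H →ₐ[GaloisRep.ratLocalizedAt p] PadicAlgCl p)))
    (hkill : ∀ x ∈ W₃, x ^ p = 1)
    (hW₃ : ∀ (τ : ce3D p), ∀ x ∈ W₃, ce3PtAct ce3IntBase_ratLocalizedAt τ x ∈ W₃)
    (hω : ∀ σ ∈ ce3Inertia p, ∀ a : ℕ, (∀ ζ : PadicAlgCl p, ζ ^ p = 1 → σ ζ = ζ ^ a) →
      ∀ x ∈ W₃, ∃ w ∈ W₂, ce3PtAct ce3IntBase_ratLocalizedAt σ x = x ^ a * w) :
    ∃ Wm : Submonoid (WithConv (H →ₐ[GaloisRep.ratLocalizedAt p] PadicAlgCl p)), Wm ≤ W₃ ∧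
      (∀ (τ : ce3D p), ∀ x ∈ Wm, ce3PtAct ce3IntBase_ratLocalizedAt τ x ∈ Wm) ∧
      (∀ σ ∈ ce3Inertia p, ∀ a : ℕ, (∀ ζ : PadicAlgCl p, ζ ^ p = 1 → σ ζ = ζ ^ a) →
        ∀ x ∈ Wm, ce3PtAct ce3IntBase_ratLocalizedAt σ x = x ^ a) ∧
      ∀ x ∈ W₃, ∃ m ∈ Wm, ∃ w ∈ W₂, x = m * w :=
  ce3_flat_mult hp2 ce3IntBase_ratLocalizedAt W₃ W₂ hkill hW₃ hω

end Fermat.Agent.S56
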