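/-
S56 / CE3: the mod `p` cyclotomic character is ramified (for `p` odd): the inertia subgroup of
`Gal(ℚ̄_p/ℚ_p)` moves every non-trivial `p`-th root of unity.

* `ce3_norm_sub_one_lt_one`   : `ζ^p = 1 ⟹ ‖ζ - 1‖ < 1`
* `ce3_exists_inertia_ne`     : `ζ^p = 1`, `ζ ≠ 1` `⟹ ∃ σ ∈ ce3Inertia p, σ ζ ≠ ζ`
* `ce3_exists_inertia_pow_ne` : `∃ σ ∈ ce3Inertia p` all of whose cyclotomic exponents are `≢ 1 mod p`
-/
import Fermat.Agent.S56.Ce.Unr
set_option autoImplicit false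
namespace Fermat.Agent.S56
variable (p : ℕ) [Fact p.Prime]

theorem ce3_norm_eq_one_of_pow_eq_one {ζ : PadicAlgCl p} {n : ℕ} (hn : n ≠ 0) (hζ : ζ ^ n = 1) :
    ‖ζ‖ = 1 := by
  have h1 : ‖ζ‖ ^ n = 1 := by rw [← norm_pow, hζ, norm_one]
  exact (pow_eq_one_iff_of_nonneg (norm_nonneg ζ) hn).mp h1

/-- a `p`-th root of unity is congruent to `1` modulo the maximal ideal -/
theorem ce3_norm_sub_one_lt_one {ζ : PadicAlgCl p} (hζ : ζ ^ p = 1) : ‖ζ - 1‖ < 1 := by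
  have hp : p.Prime := Fact.out
  set u : PadicAlgCl p := ζ - 1 with hu
  have hζn : ‖ζ‖ = 1 := ce3_norm_eq_one_of_pow_eq_one p hp.ne_zero hζ
  have hu1 : ‖u‖ ≤ 1 := by
    rw [hu, sub_eq_add_neg]
    refine (PadicAlgCl.isNonarchimedean p _ _).trans (max_le hζn.le ?_)
    rw [norm_neg, norm_one]
  have hpos : (0 : ℝ) < (p : ℝ)⁻¹ := by
    have : (0 : ℝ) < p := by exact_mod_cast hp.pos
    positivity
  have hplt : (p : ℝ)⁻¹ < 1 := by
    have : (1 : ℝ) < p := by exact_mod_cast hp.one_lt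
    exact inv_lt_one_of_one_lt₀ this
  have hζu : ζ = u + 1 := by rw [hu]; ring
  have h1 : ∑ m ∈ Finset.range (p + 1), u ^ m * 1 ^ (p - m) * ((p.choose m : ℕ) : PadicAlgCl p) = 1 := by
    rw [← add_pow, ← hζu, hζ]
  rw [Finset.sum_range_succ] at h1
  simp only [one_pow, mul_one, Nat.choose_self, Nat.cast_one, Nat.sub_self, pow_zero] at h1
  obtain ⟨n, hn⟩ : ∃ n, p = n + 1 := ⟨p - 1, by have := hp.one_le; omega⟩
  have h2 : ∑ m ∈ Finset.range (n + 1), u ^ m * ((p.choose m : ℕ) : PadicAlgCl p) + u ^ p = 1 := by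
    rw [← hn]; exact h1
  rw [Finset.sum_range_succ'] at h2
  simp only [pow_zero, Nat.choose_zero_right, Nat.cast_one, mul_one] at h2
  have h3 : u ^ p = - ∑ m ∈ Finset.range n, u ^ (m + 1) * ((p.choose (m + 1) : ℕ) : PadicAlgCl p) := by
    linear_combination h2
  have h4 : ‖u‖ ^ p ≤ (p : ℝ)⁻¹ := by
    rw [← norm_pow, h3, norm_neg]
    refine ce3_norm_sum_le p _ _ hpos.le ?_
    intro m hm
    rw [Finset.mem_range] at hm
    rw [norm_mul, norm_pow]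
    have hdvd : p ∣ p.choose (m + 1) := hp.dvd_choose_self (by omega) (by omega)
    have hc := ce3_norm_natCast_le_of_dvd p hdvd
    calc ‖u‖ ^ (m + 1) * ‖((p.choose (m + 1) : ℕ) : PadicAlgCl p)‖
        ≤ 1 * (p : ℝ)⁻¹ :=
          mul_le_mul (pow_le_one₀ (norm_nonneg _) hu1) hc (norm_nonneg _) zero_le_one
      _ = (p : ℝ)⁻¹ := one_mul _
  by_contra hge
  have h5 : 1 ≤ ‖u‖ := not_lt.mp hge
  have h6 : (1 : ℝ) ≤ ‖u‖ ^ p := one_le_pow₀ h5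
  linarith

/-- inertia moves every non-trivial `p`-th root of unity (`p` odd) -/
theorem ce3_exists_inertia_ne (hp2 : p ≠ 2) {ζ : PadicAlgCl p} (hζ : ζ ^ p = 1) (hζ1 : ζ ≠ 1) :
    ∃ σ ∈ ce3Inertia p, σ ζ ≠ ζ := by
  by_contra hcon
  have hcon : ∀ σ ∈ ce3Inertia p, σ ζ = ζ := fun σ hσ =>
    by_contra fun h => hcon ⟨σ, hσ, h⟩
  apply hζ1
  apply ce3_eq_one_of_pow_eq_one p hp2 hζ
  apply ce3_unr p (ζ - 1)
  · intro σ hσ
    rw [map_sub, map_one, hcon σ hσ]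
  · exact ce3_norm_sub_one_lt_one p hζ

/-- there is an inertia element all of whose cyclotomic exponents are `≢ 1 mod p` (`p` odd) -/
theorem ce3_exists_inertia_pow_ne (hp2 : p ≠ 2) :
    ∃ σ ∈ ce3Inertia p, ∀ a : ℕ, (∀ ζ : PadicAlgCl p, ζ ^ p = 1 → σ ζ = ζ ^ a) →
      ¬ a ≡ 1 [MOD p] := by
  have hp : p.Prime := Fact.out
  have : NeZero ((p : ℕ) : PadicAlgCl p) := ⟨Nat.cast_ne_zero.2 hp.ne_zero⟩
  have : NeZero p := ⟨hp.ne_zero⟩
  obtain ⟨ζ, hζ⟩ := HasEnoughRootsOfUnity.exists_primitiveRoot (PadicAlgCl p) p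
  have hζ1 : ζ ≠ 1 := hζ.ne_one hp.one_lt
  obtain ⟨σ, hσ, hne⟩ := ce3_exists_inertia_ne p hp2 hζ.pow_eq_one hζ1
  refine ⟨σ, hσ, fun a ha hmod => hne ?_⟩
  rw [ha ζ hζ.pow_eq_one]
  have h1 : a % p = 1 := by
    have h2 : a % p = 1 % p := hmod
    rwa [Nat.mod_eq_of_lt hp.one_lt] at h2
  rw [← Nat.div_add_mod a p, h1, pow_add, pow_mul, hζ.pow_eq_one, one_pow, one_mul, pow_one]

end Fermat.Agent.S56
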